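import Fermat.Agent.HeckeRed.Corr

/-!
# Reduction commutes with correspondences and with semilinear automorphisms
-/

set_option autoImplicit false

noncomputable section

open AlgebraicCurve Module

namespace Fermat.Agent.HeckeRed

open Fermat.Agent.FunField Fermat.Agent.FunField.PlaceLemmas Fermat.Agent.Deuring
  Fermat.Agent.PushPull

section Semilinear

variable {K F : Type*} [Field K] [Field F] [Algebra K F]

theorem divOf_smul [IsFF K F] (g : SemilinearAut K F) (f : F) :
    (divOf (g • f) : Divisor K F) = g • divOf f := by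
  ext v
  rw [divOf_apply, SemilinearAut.divisor_smul_apply, divOf_apply]
  have h := SemilinearAut.ord_smul g (g⁻¹ • v) f
  rwa [smul_inv_smul] at h

end Semilinear

section Galois

variable {L k F F₁ : Type*} [Field L] [Field k] [Field F] [Field F₁] [Algebra L F]
  [Algebra k F₁] [IsFF L F] [IsFF k F₁] [IsAlgClosed L] [IsAlgClosed k]

/-- Equivariance of the reduction map. -/
theorem reduction_smul {𝔇 : Data L k F F₁} {r : Place L F → Place k F₁} (hr : IsReduction 𝔇 r)
    (g : SemilinearAut L F) (g₁ : SemilinearAut k F₁)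
    (hg : ∀ f : 𝔇.O, ∃ h : g • (f : F) ∈ 𝔇.O, 𝔇.res ⟨g • (f : F), h⟩ = g₁ • 𝔇.res f)
    (P : Place L F) : r (g • P) = g₁ • r P := by
  classical
  have key := corr_single hr
    ((Finsupp.mapDomain.addMonoidHom r).comp (DistribSMul.toAddMonoidHom (Divisor L F) g))
    (DistribSMul.toAddMonoidHom (Divisor k F₁) g₁) 1
    (fun P => by
      simp only [AddMonoidHom.comp_apply, DistribSMul.toAddMonoidHom_apply,
        SemilinearAut.smul_single, Finsupp.mapDomain.addMonoidHom_apply, Finsupp.mapDomain_single]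
      exact single_nonneg _ zero_le_one)
    (fun P => by
      simp only [AddMonoidHom.comp_apply, DistribSMul.toAddMonoidHom_apply,
        SemilinearAut.smul_single, Finsupp.mapDomain.addMonoidHom_apply, Finsupp.mapDomain_single,
        Divisor.degree_single, Deuring.deg_eq_one, Nat.cast_one, mul_one])
    (fun P => by
      simp only [DistribSMul.toAddMonoidHom_apply,
        SemilinearAut.smul_single, Divisor.degree_single, Deuring.deg_eq_one, Nat.cast_one,
        mul_one])
    (fun f hf => by
      obtain ⟨h, hh⟩ := hg f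
      simp only [AddMonoidHom.comp_apply, DistribSMul.toAddMonoidHom_apply,
        Finsupp.mapDomain.addMonoidHom_apply]
      rw [← divOf_smul, ← divOf_smul]
      have hne : 𝔇.res ⟨g • (f : F), h⟩ ≠ 0 := by
        rw [hh]
        intro h0
        apply hf
        have := congrArg (fun x => g₁⁻¹ • x) h0
        simpa using this
      have := hr.mapDomain_divOf ⟨g • (f : F), h⟩ hne
      rw [hh] at this
      exact this)
    (fun P => by
      refine (Set.finite_singleton P).subset ?_
      rintro Q ⟨x, h1, h2⟩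
      simp only [DistribSMul.toAddMonoidHom_apply, SemilinearAut.smul_single] at h1 h2
      rw [Finsupp.single_apply_ne_zero] at h1 h2
      have h3 : g₁ • Q = g₁ • P := h2.1.symm.trans h1.1
      exact MulAction.injective g₁ h3)
    P
  simp only [AddMonoidHom.comp_apply, DistribSMul.toAddMonoidHom_apply,
    SemilinearAut.smul_single, Finsupp.mapDomain.addMonoidHom_apply,
    Finsupp.mapDomain_single] at key
  have := (Finsupp.single_eq_single_iff _ _ _ _).mp key
  rcases this with h | h
  · exact h.1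
  · exact absurd h.1 one_ne_zero

end Galois

section Norm

variable {K F F' : Type*} [Field K] [Field F] [Field F'] [Algebra K F] [Algebra K F']

/-- The norm along a finite homomorphism. -/
def normAlong (ψ : F →ₐ[K] F') (x : F') : F :=
  letI := algebraAlong ψ
  Algebra.norm F x

theorem fiberAlong_def [HasPrincipalDivisors K F'] (u : F →ₐ[K] F') (hu : u.toRingHom.IsIntegral) (w : Place K F) :
    ∀ W ∈ Place.fiberAlong u hu w, W.restrictAlong u hu = w := fun _ hW =>
  Place.mem_fiberAlong.mp hW

theorem normFormulaAlong [IsFF K F] [IsFF K F'] [IsAlgClosed K] (ψ : F →ₐ[K] F')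
    (hfin : FiniteAlong K ψ) : NormFormulaAlong K ψ hfin := by
  letI := algebraAlong ψ
  haveI := isScalarTower_along ψ
  haveI : Module.Finite F F' := hfin
  exact pushforwardNormFormula K F F'

theorem fundamentalIdentityAlong [IsFF K F] [IsFF K F'] (φ : F →ₐ[K] F')
    (hφ : φ.toRingHom.IsIntegral) (hfin : FiniteAlong K φ) :
    FundamentalIdentityAlong K φ hφ := by
  letI := algebraAlong φ
  haveI := isScalarTower_along φ
  haveI : Module.Finite F F' := hfin
  exact fundamentalIdentity K F F'

theorem isIntegral_of_finiteAlong (φ : F →ₐ[K] F') (hfin : FiniteAlong K φ) :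
    φ.toRingHom.IsIntegral := by
  letI := algebraAlong φ
  haveI : Module.Finite F F' := hfin
  intro x
  exact Algebra.IsIntegral.isIntegral (R := F) x

theorem normAlong_ne_zero (ψ : F →ₐ[K] F') (hfin : FiniteAlong K ψ) {x : F'} (hx : x ≠ 0) :
    normAlong ψ x ≠ 0 := by
  letI := algebraAlong ψ
  haveI : Module.Finite F F' := hfin
  exact Algebra.norm_ne_zero_iff.mpr hx

theorem normAlong_mul (ψ : F →ₐ[K] F') (x y : F') :
    normAlong ψ (x * y) = normAlong ψ x * normAlong ψ y := by
  letI := algebraAlong ψ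
  exact map_mul (Algebra.norm F) x y

/-- pushforward of a principal divisor -/
theorem pushforwardAlong_divOf [IsFF K F] [IsFF K F'] [IsAlgClosed K] (ψ : F →ₐ[K] F')
    (hψ : ψ.toRingHom.IsIntegral) (hfin : FiniteAlong K ψ) {x : F'} (hx : x ≠ 0) :
    Divisor.pushforwardAlong ψ hψ (divOf x) = divOf (normAlong ψ x) := by
  ext v
  rw [divOf_apply]
  exact normFormulaAlong ψ hfin x hx (divOf x) (fun w => divOf_apply x w) v

/-- pullback of a principal divisor -/
theorem pullbackAlong_divOf [IsFF K F] [IsFF K F'] (φ : F →ₐ[K] F')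
    (hφ : φ.toRingHom.IsIntegral) (x : F) :
    Divisor.pullbackAlong φ hφ (divOf x) = divOf (φ x) := by
  ext w
  rw [Divisor.pullbackAlong_apply, divOf_apply, divOf_apply, ← Place.ord_restrictAlong]

theorem correspondence_divOf [IsFF K F] [IsFF K F'] [IsAlgClosed K] (φ ψ : F →ₐ[K] F')
    (hφ : φ.toRingHom.IsIntegral) (hψ : ψ.toRingHom.IsIntegral) (hfin : FiniteAlong K ψ)
    {x : F} (hx : x ≠ 0) :
    Divisor.correspondence φ ψ hφ hψ (divOf x) = divOf (normAlong ψ (φ x)) := by
  rw [Divisor.correspondence_apply, pullbackAlong_divOf, pushforwardAlong_divOf ψ hψ hfin]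
  simpa using hx

theorem correspondence_single [IsFF K F] [IsFF K F'] (φ ψ : F →ₐ[K] F')
    (hφ : φ.toRingHom.IsIntegral) (hψ : ψ.toRingHom.IsIntegral) (P : Place K F) :
    Divisor.correspondence φ ψ hφ hψ (Finsupp.single P 1) =
      ∑ W ∈ Place.fiberAlong φ hφ P, Finsupp.single (W.restrictAlong ψ hψ)
        ((W.ramificationIndexAlong φ : ℤ) * W.inertiaDegAlong ψ hψ) := by
  rw [Divisor.correspondence_apply, Divisor.pullbackAlong_single, map_sum]
  refine Finset.sum_congr rfl fun W _ => ?_
  rw [Divisor.pushforwardAlong_single, one_mul]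

theorem correspondence_single_nonneg [IsFF K F] [IsFF K F'] (φ ψ : F →ₐ[K] F')
    (hφ : φ.toRingHom.IsIntegral) (hψ : ψ.toRingHom.IsIntegral) (P : Place K F) :
    0 ≤ Divisor.correspondence φ ψ hφ hψ (Finsupp.single P 1) := by
  rw [correspondence_single]
  exact Finset.sum_nonneg fun W _ => single_nonneg _ (mul_nonneg (Int.natCast_nonneg _)
    (Int.natCast_nonneg _))

theorem exists_of_correspondence_ne_zero [IsFF K F] [IsFF K F'] (φ ψ : F →ₐ[K] F')
    (hφ : φ.toRingHom.IsIntegral) (hψ : ψ.toRingHom.IsIntegral) (P x : Place K F)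
    (h : Divisor.correspondence φ ψ hφ hψ (Finsupp.single P 1) x ≠ 0) :
    ∃ W : Place K F', W.restrictAlong φ hφ = P ∧ W.restrictAlong ψ hψ = x := by
  classical
  by_contra hcon
  push Not at hcon
  apply h
  rw [correspondence_single, Finset.sum_apply']
  refine Finset.sum_eq_zero fun W hW => ?_
  exact Finsupp.single_eq_of_ne' (hcon W (Place.mem_fiberAlong.mp hW))

theorem finite_bad [IsFF K F] [IsFF K F'] (φ ψ : F →ₐ[K] F')
    (hφ : φ.toRingHom.IsIntegral) (hψ : ψ.toRingHom.IsIntegral) (P : Place K F) :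
    {Q : Place K F | ∃ x : Place K F,
      Divisor.correspondence φ ψ hφ hψ (Finsupp.single P 1) x ≠ 0 ∧
      Divisor.correspondence φ ψ hφ hψ (Finsupp.single Q 1) x ≠ 0}.Finite := by
  classical
  refine Set.Finite.subset (Set.Finite.biUnion
    (Divisor.correspondence φ ψ hφ hψ (Finsupp.single P 1)).support.finite_toSet
    (t := fun x => (Place.restrictAlong φ hφ) '' (Place.fiberAlong ψ hψ x : Set (Place K F')))
    fun x _ => (Finset.finite_toSet _).image _) ?_
  rintro Q ⟨x, hx1, hx2⟩
  obtain ⟨W, hW1, hW2⟩ := exists_of_correspondence_ne_zero φ ψ hφ hψ Q x hx2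
  exact Set.mem_biUnion (x := x) (Finset.mem_coe.mpr (Finsupp.mem_support_iff.mpr hx1))
    ⟨W, Finset.mem_coe.mpr (Place.mem_fiberAlong.mpr hW2), hW1⟩

end Norm

section Hecke

variable {L k F F₁ F' F₁' : Type*} [Field L] [Field k] [Field F] [Field F₁] [Field F']
  [Field F₁'] [Algebra L F] [Algebra k F₁] [Algebra L F'] [Algebra k F₁']
  [IsFF L F] [IsFF k F₁] [IsFF L F'] [IsFF k F₁'] [IsAlgClosed L] [IsAlgClosed k]

/-- Reduction commutes with correspondences. -/
theorem mapDomain_correspondence {𝔇 : Data L k F F₁} {r : Place L F → Place k F₁}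
    (hr : IsReduction 𝔇 r) (φ ψ : F →ₐ[L] F') (hφ : φ.toRingHom.IsIntegral)
    (hψ : ψ.toRingHom.IsIntegral) (hφf : FiniteAlong L φ) (hψf : FiniteAlong L ψ)
    (φ₁ ψ₁ : F₁ →ₐ[k] F₁') (hφ₁ : φ₁.toRingHom.IsIntegral)
    (hψ₁ : ψ₁.toRingHom.IsIntegral) (hφf₁ : FiniteAlong k φ₁) (hψf₁ : FiniteAlong k ψ₁)
    (hdeg : finrankAlong L φ = finrankAlong k φ₁)
    (hN : ∀ f : 𝔇.O, 𝔇.res f ≠ 0 → ∃ g : 𝔇.O, (g : F) = normAlong ψ (φ f) ∧
      𝔇.res g = normAlong ψ₁ (φ₁ (𝔇.res f))) (D : Divisor L F) :
    Finsupp.mapDomain r (Divisor.correspondence φ ψ hφ hψ D) =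
      Divisor.correspondence φ₁ ψ₁ hφ₁ hψ₁ (Finsupp.mapDomain r D) := by
  have key := corr_eq hr
    ((Finsupp.mapDomain.addMonoidHom r).comp (Divisor.correspondence φ ψ hφ hψ))
    (Divisor.correspondence φ₁ ψ₁ hφ₁ hψ₁) (finrankAlong L φ)
    (fun P => by
      rw [AddMonoidHom.comp_apply]
      exact map_nonneg_of_single (Finsupp.mapDomain.addMonoidHom r) (fun Q => by
        rw [Finsupp.mapDomain.addMonoidHom_apply, Finsupp.mapDomain_single]
        exact single_nonneg _ zero_le_one) (correspondence_single_nonneg φ ψ hφ hψ P))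
    (fun P => by
      rw [AddMonoidHom.comp_apply, Finsupp.mapDomain.addMonoidHom_apply]
      have h1 : ∀ D : Divisor L F, Divisor.degree (Finsupp.mapDomain r D) = Divisor.degree D := by
        intro D
        induction D using Finsupp.induction with
        | zero => simp
        | single_add P n D _ _ ih =>
          rw [Finsupp.mapDomain_add, map_add, map_add, ih, Finsupp.mapDomain_single,
            Divisor.degree_single, Divisor.degree_single, Deuring.deg_eq_one, Deuring.deg_eq_one]
      rw [h1, Divisor.degree_correspondence φ ψ hφ hψ (fundamentalIdentityAlong φ hφ hφf),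
        Divisor.degree_single, Deuring.deg_eq_one, Nat.cast_one, mul_one, mul_one])
    (fun P => by
      rw [Divisor.degree_correspondence φ₁ ψ₁ hφ₁ hψ₁ (fundamentalIdentityAlong φ₁ hφ₁ hφf₁),
        Divisor.degree_single, Deuring.deg_eq_one, Nat.cast_one, mul_one, mul_one, hdeg])
    (fun f hf => by
      obtain ⟨g, hg1, hg2⟩ := hN f hf
      have hf0 : (f : F) ≠ 0 := 𝔇.coe_ne_zero_of_res_ne_zero hf
      have hg0 : 𝔇.res g ≠ 0 := by
        rw [hg2]
        exact normAlong_ne_zero ψ₁ hψf₁ (by simpa using hf)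
      rw [AddMonoidHom.comp_apply, Finsupp.mapDomain.addMonoidHom_apply,
        correspondence_divOf φ ψ hφ hψ hψf hf0, correspondence_divOf φ₁ ψ₁ hφ₁ hψ₁ hψf₁ hf,
        ← hg1, ← hg2]
      exact hr.mapDomain_divOf g hg0)
    (finite_bad φ₁ ψ₁ hφ₁ hψ₁) D
  rw [← key]
  rfl

end Hecke

end Fermat.Agent.HeckeRed
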