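import Fermat.Agent.HeckeRed.FF
import Fermat.Agent.HeckeRed.Along

/-!
# `HeckeInputsAlong`
-/

set_option autoImplicit false

noncomputable section

open AlgebraicCurve ModularCurve IntermediateField

namespace Fermat.Agent.HeckeRed

open Fermat.Agent.FunField Fermat.Agent.FunField.PlaceLemmas Fermat.Agent.PushPull

section General

variable {K F F' : Type*} [Field K] [Field F] [Field F'] [Algebra K F] [Algebra K F']

/-- Every homomorphism of function fields is finite. -/
theorem finiteAlong_of_isFF [h : IsFF K F] [IsFF K F'] (φ : F →ₐ[K] F') : FiniteAlong K φ := by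
  let _ := algebraAlong φ
  have _ := isScalarTower_along φ
  show Module.Finite F F'
  obtain ⟨x, hx, -⟩ := h.exists_transcendental
  have hx' : Transcendental K (algebraMap F F' x) := transcendental_algebraMap hx
  have hfin := finiteDimensional_adjoin_of_isFF (K := K) hx'
  have h1 : Algebra.EssFiniteType F F' := Algebra.EssFiniteType.of_comp K F F'
  have h2 : Algebra.IsAlgebraic F F' := by
    refine ⟨fun a => ?_⟩
    have ha : IsIntegral K⟮algebraMap F F' x⟯ a := Algebra.IsIntegral.isIntegral a
    have h3 : IntOver (Set.range (algebraMap F F')) a := by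
      refine intOver_of_isIntegral (R := K⟮algebraMap F F' x⟯) (fun r => ?_) ha
      have h4 : (K⟮x⟯).map (IsScalarTower.toAlgHom K F F') = K⟮algebraMap F F' x⟯ := by
        rw [adjoin_map, Set.image_singleton]; rfl
      have h5 : (r : F') ∈ (K⟮x⟯).map (IsScalarTower.toAlgHom K F F') :=
        h4.ge r.2
      obtain ⟨y, -, hy⟩ := h5
      exact ⟨y, hy⟩
    exact (isIntegral_of_intOver (fun s hs => hs) h3).isAlgebraic
  exact finiteDimensional_of_essFiniteType_of_isAlgebraic F F'

theorem isIntegral_of_isFF [h : IsFF K F] [IsFF K F'] (φ : F →ₐ[K] F') :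
    φ.toRingHom.IsIntegral := isIntegral_of_finiteAlong φ (finiteAlong_of_isFF φ)

end General

section Inputs

variable (L : Type*) [Field L] [Algebra ℚ L] [IsAlgClosed L] (N ℓ : ℕ) [NeZero N] [NeZero ℓ]

instance neZero_mul : NeZero (N * ℓ) := ⟨Nat.mul_ne_zero (NeZero.ne N) (NeZero.ne ℓ)⟩

theorem alphaInt : HeckeAlphaBarIntegral L N ℓ := isIntegral_of_isFF (heckeAlphaBar L N ℓ)

theorem betaInt : HeckeBetaBarIntegral L N ℓ := isIntegral_of_isFF (heckeBetaBar L N ℓ)

/-- The inputs of the Hecke operator always hold over an algebraically closed field. -/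
theorem heckeInputsAlong : HeckeInputsAlong L N ℓ :=
  ⟨alphaInt L N ℓ, betaInt L N ℓ, inferInstance, finiteAlong_of_isFF _,
    fundamentalIdentityAlong _ _ (finiteAlong_of_isFF _), normFormulaAlong _ _⟩

/-- The Hecke operator on classes of divisors. -/
theorem heckeOperatorAlong_mk (D : Divisor.degZero (K := L)
    (F := laurentBaseChange L (modularFunctionFieldFull N))) :
    heckeOperatorAlong L N ℓ (Pic0.mk D) =
      Pic0.mk (Pic0.degZeroCorrespondence (heckeBetaBar L N ℓ) (heckeAlphaBar L N ℓ)
        (betaInt L N ℓ) (alphaInt L N ℓ)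
        (fundamentalIdentityAlong _ _ (finiteAlong_of_isFF _)) D) := by
  rw [heckeOperatorAlong_eq (alphaInt L N ℓ) (betaInt L N ℓ)
    (fundamentalIdentityAlong _ _ (finiteAlong_of_isFF _)) (finiteAlong_of_isFF _)
    (normFormulaAlong _ _)]
  rfl

end Inputs

end Fermat.Agent.HeckeRed
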