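import Fermat.Agent.ModDeg.DegreeClosed
import Fermat.Agent.HeckeRed.Inputs

/-!
# Degrees of the degeneracy maps
-/

set_option autoImplicit false

noncomputable section

open AlgebraicCurve ModularCurve IntermediateField HahnSeries

namespace Fermat.Agent.HeckeRed

open Fermat.Agent.FunField Fermat.Agent.ModDeg Fermat.Agent.ModPoly

section General

variable {K Ω : Type*} [Field K] [Field Ω] [Algebra K Ω]

/-- the degree along `φ` is the relative degree of its image. -/
theorem finrankAlong_eq_relfinrank {E E' : IntermediateField K Ω} (φ : E →ₐ[K] E')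
    (G : IntermediateField K Ω) (hG : ∀ y, y ∈ G ↔ ∃ x, (φ x : Ω) = y) :
    finrankAlong K φ = G.relfinrank E' := by
  have hle : G ≤ E' := by
    intro y hy
    obtain ⟨x, rfl⟩ := (hG y).mp hy
    exact (φ x).2
  rw [relfinrank_eq_finrank_of_le hle]
  let _ := algebraAlong φ
  let f1 : E →+* G := ((E'.val : E' →+* Ω).comp (φ : E →+* E')).codRestrict G
    (fun x => (hG _).mpr ⟨x, rfl⟩)
  have hf1 : Function.Bijective f1 := by
    refine ⟨f1.injective, ?_⟩
    rintro ⟨y, hy⟩
    obtain ⟨x, hx⟩ := (hG y).mp hy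
    exact ⟨x, Subtype.ext hx⟩
  let f2 : E' →+* extendScalars hle :=
    (E'.val : E' →+* Ω).codRestrict (extendScalars hle) (fun x => x.2)
  have hf2 : Function.Bijective f2 := by
    refine ⟨f2.injective, ?_⟩
    rintro ⟨y, hy⟩
    exact ⟨⟨y, hy⟩, rfl⟩
  show Module.finrank E E' = _
  exact Algebra.finrank_eq_of_equiv_equiv (RingEquiv.ofBijective f1 hf1)
    (RingEquiv.ofBijective f2 hf2) rfl

end General

section Modular

variable {K : Type*} [Field K] [IsAlgClosed K] {N p : ℕ} [NeZero N] [hp : Fact p.Prime]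

/-- the relative degree of `F_{Np}` over `V_p F_N` -/
theorem relfinrank_map_full (hNp : ((N * p : ℕ) : K) ≠ 0) :
    relfinrank ((modularFunctionFieldFullC K N).map (qExpandAlgHomC K p))
      (modularFunctionFieldFullC K (N * p)) * dedekindPsi N = dedekindPsi (N * p) := by
  have hNp' := hNp
  rw [Nat.cast_mul] at hNp'
  have hNK := left_ne_zero_of_mul hNp'
  have hpK := right_ne_zero_of_mul hNp'
  obtain ⟨v, hv⟩ := exists_primitiveRoot_unit hp.out hpK
  have : NeZero (N * p) := ⟨mul_ne_zero (NeZero.ne N) hp.out.ne_zero⟩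
  have hG : IntermediateField.adjoin K {jqModC K} ⊔
      IntermediateField.adjoin K {qExpand K p (jqModC K)} ≤
      modularFunctionFieldFullC K (N * p) := by
    rw [sup_le_iff]
    refine ⟨adjoin_jq_le_full _, ?_⟩
    rw [IntermediateField.adjoin_le_iff, Set.singleton_subset_iff]
    exact jqModCd_mem_full K (N * p) (Dvd.intro_left N rfl)
  have h1 := IntermediateField.relfinrank_mul_relfinrank (le_sup_left :
    IntermediateField.adjoin K {jqModC K} ≤ _) hG
  have h2 := IntermediateField.relfinrank_mul_relfinrank (le_sup_right :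
    IntermediateField.adjoin K {qExpand K p (jqModC K)} ≤ _) hG
  rw [relfinrank_left hv hpK] at h1
  rw [relfinrank_right hv hpK] at h2
  have h3 := IntermediateField.relfinrank_mul_relfinrank
    (IntermediateField.map_mono (qExpandAlgHomC K p) (adjoin_jq_le_full (K := K) N))
    (full_degeneracyC_map_le K N p)
  rw [IntermediateField.relfinrank_map_map, relfinrank_full_of_isAlgClosed N hNK,
    map_adjoin_jq] at h3
  rw [mul_comm, h3, ← h2, h1, relfinrank_full_of_isAlgClosed (N * p) hNp]

theorem relfinrank_full_full (hNp : ((N * p : ℕ) : K) ≠ 0) :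
    relfinrank (modularFunctionFieldFullC K N)
      (modularFunctionFieldFullC K (N * p)) * dedekindPsi N = dedekindPsi (N * p) := by
  have hNp' := hNp
  rw [Nat.cast_mul] at hNp'
  have hNK := left_ne_zero_of_mul hNp'
  have : NeZero (N * p) := ⟨mul_ne_zero (NeZero.ne N) hp.out.ne_zero⟩
  have h3 := IntermediateField.relfinrank_mul_relfinrank
    (adjoin_jq_le_full (K := K) N) (full_degeneracyC_le K (Dvd.intro p rfl : N ∣ N * p))
  rw [relfinrank_full_of_isAlgClosed N hNK, relfinrank_full_of_isAlgClosed (N * p) hNp] at h3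
  rw [mul_comm]; exact h3

theorem dedekindPsi_pos (N : ℕ) [NeZero N] : 0 < dedekindPsi N := by
  rw [dedekindPsi]
  refine Finset.sum_pos (fun d hd => ?_) ⟨1, ?_⟩
  · rw [Finset.mem_filter, Nat.mem_divisors] at hd
    exact Nat.div_pos (Nat.le_of_dvd (Nat.pos_of_ne_zero (NeZero.ne N)) hd.1.1)
      (Nat.pos_of_dvd_of_pos hd.1.1 (Nat.pos_of_ne_zero (NeZero.ne N)))
  · rw [Finset.mem_filter, Nat.mem_divisors]
    exact ⟨⟨one_dvd _, NeZero.ne N⟩, squarefree_one⟩

variable {E E' : IntermediateField K (LaurentSeries K)}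
  (hE : E = modularFunctionFieldFullC K N) (hE' : E' = modularFunctionFieldFullC K (N * p))
  (α β : E →ₐ[K] E') (hα : ∀ x, (α x : LaurentSeries K) = x)
  (hβ : ∀ x, (β x : LaurentSeries K) = qExpand K p (x : LaurentSeries K))

include hE hE' hα in
theorem finrankAlong_alpha (hNp : ((N * p : ℕ) : K) ≠ 0) :
    finrankAlong K α * dedekindPsi N = dedekindPsi (N * p) := by
  rw [finrankAlong_eq_relfinrank α E (fun y => ⟨fun hy => ⟨⟨y, hy⟩, hα _⟩, by
    rintro ⟨x, rfl⟩; rw [hα]; exact x.2⟩), hE, hE', relfinrank_full_full hNp]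

include hE hE' hβ in
theorem finrankAlong_beta (hNp : ((N * p : ℕ) : K) ≠ 0) :
    finrankAlong K β * dedekindPsi N = dedekindPsi (N * p) := by
  subst hE hE'
  rw [finrankAlong_eq_relfinrank β ((modularFunctionFieldFullC K N).map (qExpandAlgHomC K p))
    (fun y => ⟨fun hy => by
      obtain ⟨x, hx, rfl⟩ := hy
      exact ⟨⟨x, hx⟩, hβ _⟩, by
      rintro ⟨x, rfl⟩; rw [hβ]; exact ⟨x, x.2, rfl⟩⟩), relfinrank_map_full hNp]

end Modular

end Fermat.Agent.HeckeRed
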