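import Fermat.Agent.ModPoly.BaseCase
import Fermat.Agent.FunField.RR
import Fermat.Prelude.Def_ModularCurve_HeckeModule

/-!
# The modular function fields are function fields
-/

set_option autoImplicit false

noncomputable section

open HahnSeries ModularCurve IntermediateField

namespace Fermat.Agent.HeckeRed

open Fermat.Agent.ModPoly Fermat.Agent.FunField

section IntOver

variable {Ω : Type*} [Field Ω]

/-- integrality over a subset, in terms of polynomials over the big field -/
def IntOver (S : Set Ω) (x : Ω) : Prop :=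
  ∃ p : Polynomial Ω, p.Monic ∧ (∀ i, p.coeff i ∈ S) ∧ p.eval x = 0

theorem IntOver.mono {S T : Set Ω} (h : S ⊆ T) {x : Ω} (hx : IntOver S x) : IntOver T x := by
  obtain ⟨p, hp, hc, h0⟩ := hx
  exact ⟨p, hp, fun i => h (hc i), h0⟩

variable {K : Type*} [Field K] [Algebra K Ω]

theorem intOver_of_isIntegral {R : Type*} [CommRing R] [Algebra R Ω] {S : Set Ω}
    (hS : ∀ r : R, algebraMap R Ω r ∈ S) {x : Ω} (hx : IsIntegral R x) : IntOver S x := by
  obtain ⟨p, hp, h0⟩ := hx
  refine ⟨p.map (algebraMap R Ω), hp.map _, fun i => ?_, ?_⟩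
  · rw [Polynomial.coeff_map]; exact hS _
  · rw [Polynomial.eval_map]; exact h0

theorem isIntegral_of_intOver {R : Type*} [CommRing R] [Algebra R Ω] {S : Set Ω}
    (hS : ∀ s ∈ S, ∃ r : R, algebraMap R Ω r = s) {x : Ω} (hx : IntOver S x) :
    IsIntegral R x := by
  obtain ⟨p, hp, hc, h0⟩ := hx
  have hl : p ∈ Polynomial.lifts (algebraMap R Ω) := by
    rw [Polynomial.lifts_iff_coeff_lifts]
    intro i
    obtain ⟨r, hr⟩ := hS _ (hc i)
    exact ⟨r, hr⟩
  obtain ⟨q, hq, -, hqm⟩ := Polynomial.lifts_and_natDegree_eq_and_monic hl hp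
  refine ⟨q, hqm, ?_⟩
  rw [← Polynomial.eval_map, hq, h0]

theorem isIntegral_iff_intOver (E : IntermediateField K Ω) (x : Ω) :
    IsIntegral E x ↔ IntOver (E : Set Ω) x :=
  ⟨fun h => intOver_of_isIntegral (fun r => r.2) h,
    fun h => isIntegral_of_intOver (fun s hs => ⟨⟨s, hs⟩, rfl⟩) h⟩

theorem IntOver.trans {E : IntermediateField K Ω} {S : Set Ω} (hS : ∀ s ∈ S, IntOver (E : Set Ω) s)
    {x : Ω} (hx : IntOver S x) : IntOver (E : Set Ω) x := by
  rw [← isIntegral_iff_intOver]
  have h1 : IsIntegral (integralClosure E Ω) x := by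
    refine isIntegral_of_intOver (fun s hs => ?_) hx
    exact ⟨⟨s, (isIntegral_iff_intOver E s).mpr (hS s hs)⟩, rfl⟩
  exact isIntegral_trans (A := integralClosure E Ω) x h1

/-- The set of elements integral over a subfield is a subfield. -/
theorem adjoin_intOver (E : IntermediateField K Ω) (S : Set Ω)
    (hS : ∀ s ∈ S, IntOver (E : Set Ω) s) {x : Ω} (hx : x ∈ IntermediateField.adjoin K S) :
    IntOver (E : Set Ω) x := by
  have h1 : IntermediateField.adjoin K S ≤ (algebraicClosure E Ω).restrictScalars K := by
    rw [IntermediateField.adjoin_le_iff]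
    intro s hs
    rw [SetLike.mem_coe, IntermediateField.mem_restrictScalars, mem_algebraicClosure_iff]
    exact ((isIntegral_iff_intOver E s).mpr (hS s hs)).isAlgebraic
  have h2 := h1 hx
  rw [IntermediateField.mem_restrictScalars, mem_algebraicClosure_iff] at h2
  exact (isIntegral_iff_intOver E x).mp h2.isIntegral

end IntOver

section FFCrit

variable {K Ω : Type*} [Field K] [Field Ω] [Algebra K Ω]

theorem transcendental_of_val {F : IntermediateField K Ω} {x : F}
    (hx : Transcendental K (x : Ω)) : Transcendental K x := by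
  intro h
  exact hx (IsAlgebraic.algebraMap (A := Ω) h)

/-- Function fields inside a big field. -/
theorem isFF_of_intOver {F : IntermediateField K Ω} (hfg : F.FG)
    {j : Ω} (hj : j ∈ F) (hjt : Transcendental K j)
    (hint : ∀ y ∈ F, IntOver (K⟮j⟯ : Set Ω) y) : IsFF K F := by
  set x : F := ⟨j, hj⟩ with hx
  refine ⟨⟨x, transcendental_of_val (x := x) hjt, ?_⟩⟩
  have h0 : Algebra.EssFiniteType K F := essFiniteType_iff.mpr hfg
  have h1 : Algebra.EssFiniteType K⟮x⟯ F := Algebra.EssFiniteType.of_comp K K⟮x⟯ F
  have hmap : (K⟮x⟯).map F.val = K⟮j⟯ := by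
    rw [adjoin_map, Set.image_singleton]; rfl
  have h2 : Algebra.IsAlgebraic K⟮x⟯ F := by
    refine ⟨fun a => ?_⟩
    have h3 : IsIntegral K⟮x⟯ (a : Ω) := by
      refine isIntegral_of_intOver (fun s hs => ?_) (hint a a.2)
      rw [SetLike.mem_coe, ← hmap] at hs
      obtain ⟨y, hy, rfl⟩ := hs
      exact ⟨⟨y, hy⟩, rfl⟩
    obtain ⟨p, hp, h4⟩ := h3
    refine ⟨p, hp.ne_zero, ?_⟩
    apply Subtype.val_injective
    have h5 := Polynomial.hom_eval₂ p (algebraMap K⟮x⟯ F) (algebraMap F Ω) a
    rw [Polynomial.aeval_def]
    exact h5.trans h4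
  exact finiteDimensional_of_essFiniteType_of_isAlgebraic _ _

end FFCrit

section Alg

variable (K : Type*) [Field K] [IsAlgClosed K]

theorem exists_root_cyclotomic (p : ℕ) [hp : Fact p.Prime] :
    ∃ v : Kˣ, (Polynomial.cyclotomic p K).IsRoot (v : K) := by
  have hdeg : (Polynomial.cyclotomic p K).degree ≠ 0 := by
    rw [Polynomial.degree_cyclotomic, Nat.totient_prime hp.out]
    have := hp.out.two_le
    have h2 : p - 1 ≠ 0 := by omega
    exact_mod_cast h2
  obtain ⟨v, hv⟩ := IsAlgClosed.exists_root _ hdeg
  have hpow : v ^ p = 1 := by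
    have h1 : Polynomial.cyclotomic p K ∣ Polynomial.X ^ p - 1 :=
      Polynomial.cyclotomic.dvd_X_pow_sub_one p K
    have h2 := hv.dvd h1
    rw [Polynomial.IsRoot, Polynomial.eval_sub, Polynomial.eval_pow, Polynomial.eval_X,
      Polynomial.eval_one, sub_eq_zero] at h2
    exact h2
  exact ⟨Units.ofPowEqOne v p hpow hp.out.ne_zero, hv⟩

/-- The modular equation `Φ_p(j(q), j(q^p)) = 0`. -/
theorem modPolyK_eval (p : ℕ) [Fact p.Prime] :
    ((modPolyK K p).map (Polynomial.aeval (jqModC K) : Polynomial K →ₐ[K] _).toRingHom).eval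
      (qExpand K p (jqModC K)) = 0 := by
  obtain ⟨v, hv⟩ := exists_root_cyclotomic K p
  have h1 : ((modPolyK K p).map (evK K p)).eval (qExpand K p (qExpand K p (jqModC K))) = 0 := by
    rw [modPolyK, Polynomial.map_map, evK_comp_map, modPoly_map p hv, Polynomial.eval_prod]
    refine Finset.prod_eq_zero (Finset.mem_univ none) ?_
    simp [jT, conjL]
  apply qExpand_injective p
  rw [map_zero, ← h1, Polynomial.eval_map, Polynomial.eval_map, Polynomial.hom_eval₂]
  rfl

theorem intOver_step (d p : ℕ) [NeZero d] [Fact p.Prime] [NeZero (d * p)] :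
    IntOver (K⟮qExpand K d (jqModC K)⟯ : Set (LaurentSeries K))
      (qExpand K (d * p) (jqModC K)) := by
  refine ⟨((modPolyK K p).map (Polynomial.aeval (jqModC K) : Polynomial K →ₐ[K] _).toRingHom).map
    (qExpand K d), ((modPolyK_monic p).map _).map _, fun i => ?_, ?_⟩
  · rw [Polynomial.coeff_map, Polynomial.coeff_map]
    have h1 : ∀ G : Polynomial K, qExpand K d (Polynomial.aeval (jqModC K) G) =
        Polynomial.aeval (qExpand K d (jqModC K)) G := by
      intro G
      have := Polynomial.aeval_algHom_apply (qExpandAlgHomC K d) (jqModC K) G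
      rw [qExpandAlgHomC_apply, qExpandAlgHomC_apply] at this
      exact this.symm
    have h2 : qExpand K d ((Polynomial.aeval (jqModC K) : Polynomial K →ₐ[K] _).toRingHom
        ((modPolyK K p).coeff i)) = Polynomial.aeval (qExpand K d (jqModC K))
          ((modPolyK K p).coeff i) := h1 _
    rw [h2]
    exact algebra_adjoin_le_adjoin K _ (Polynomial.aeval_mem_adjoin_singleton K _)
  · have h3 : qExpand K (d * p) (jqModC K) = qExpand K d (qExpand K p (jqModC K)) := by
      rw [qExpand_qExpand]
    rw [h3, Polynomial.eval_map, Polynomial.eval₂_hom, modPolyK_eval, map_zero]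

theorem intOver_qExpand (d : ℕ) [NeZero d] :
    IntOver (K⟮jqModC K⟯ : Set (LaurentSeries K)) (qExpand K d (jqModC K)) := by
  have key : ∀ n : ℕ, ∀ (h : NeZero n),
      IntOver (K⟮jqModC K⟯ : Set (LaurentSeries K)) (qExpand K n (jqModC K)) := by
    intro n
    induction n using Nat.strong_induction_on with
    | _ n ih =>
      intro h
      rcases Nat.lt_or_ge 1 n with h1 | h1
      · obtain ⟨p, hp, m, rfl⟩ : ∃ p : ℕ, p.Prime ∧ p ∣ n := Nat.exists_prime_and_dvd (by omega)
        have : Fact p.Prime := ⟨hp⟩
        have hm : m ≠ 0 := by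
          rintro rfl
          exact h.out (mul_zero p)
        have : NeZero m := ⟨hm⟩
        have hlt : m < p * m := by
          have := hp.two_le
          have := Nat.pos_of_ne_zero hm
          nlinarith
        have ih' := ih m hlt inferInstance
        have : NeZero (m * p) := ⟨Nat.mul_ne_zero hm hp.ne_zero⟩
        have h2 := intOver_step K m p
        have h3 : qExpand K (p * m) (jqModC K) = qExpand K (m * p) (jqModC K) :=
          qExpand_congr (mul_comm p m) _
        rw [h3]
        refine IntOver.trans (fun s hs => ?_) h2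
        exact adjoin_intOver _ {qExpand K m (jqModC K)}
          (fun s hs => by rw [Set.mem_singleton_iff.mp hs]; exact ih') hs
      · have : n = 1 := by
          have := Nat.pos_of_ne_zero h.ne
          omega
        subst this
        rw [qExpand_one_apply]
        exact ⟨Polynomial.X - Polynomial.C (jqModC K), Polynomial.monic_X_sub_C _, fun i => by
          rw [Polynomial.coeff_sub, Polynomial.coeff_X, Polynomial.coeff_C]
          refine sub_mem ?_ ?_
          · split_ifs
            · exact one_mem _
            · exact zero_mem _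
          · split_ifs
            · exact mem_adjoin_simple_self K _
            · exact zero_mem _, by simp⟩
  exact key d inferInstance

theorem intOver_full (N : ℕ) {y : LaurentSeries K} (hy : y ∈ modularFunctionFieldFullC K N) :
    IntOver (K⟮jqModC K⟯ : Set (LaurentSeries K)) y := by
  refine adjoin_intOver _ (divisorExpansionsC K N) ?_ hy
  rintro s ⟨d, hd, -, rfl⟩
  exact intOver_qExpand K d

omit [IsAlgClosed K] in
theorem finite_divisorExpansionsC (N : ℕ) [NeZero N] : (divisorExpansionsC K N).Finite := by
  have : divisorExpansionsC K N ⊆ Set.range (fun d : N.divisors =>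
      haveI : NeZero (d : ℕ) := ⟨(Nat.pos_of_mem_divisors d.2).ne'⟩
      qExpand K (d : ℕ) (jqModC K)) := by
    rintro _ ⟨d, hd, hdN, rfl⟩
    exact ⟨⟨d, Nat.mem_divisors.mpr ⟨hdN, NeZero.ne N⟩⟩, rfl⟩
  exact (Set.finite_range _).subset this

/-- The element `j` of the modular function field. -/
def jF (N : ℕ) : modularFunctionFieldFullC K N := ⟨jqModC K, jqModC_mem_full K N⟩

omit [IsAlgClosed K] in
theorem transcendental_jF (N : ℕ) : Transcendental K (jF K N) :=
  transcendental_of_val (x := jF K N) transcendental_jqModC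

instance isFF_fullC (N : ℕ) [NeZero N] : IsFF K (modularFunctionFieldFullC K N) :=
  isFF_of_intOver ((fg_adjoin_of_finite (finite_divisorExpansionsC K N)))
    (jqModC_mem_full K N) transcendental_jqModC (fun _ hy => intOver_full K N hy)

end Alg

section BaseChange

variable (L : Type*) [Field L] [Algebra ℚ L]

/-- The base change of the modular function field is the modular function field over `L`. -/
theorem laurentBaseChange_full (N : ℕ) :
    laurentBaseChange L (modularFunctionFieldFull N) = modularFunctionFieldFullC L N := by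
  have hj : ∀ (d : ℕ) [NeZero d], coeffEmb L (qExpand ℚ d jq) = qExpand L d (jqModC L) := by
    intro d _
    rw [← jqModC_rat, coeffEmb, coeffMap_qExpand, coeffMap_jqModC]
  apply le_antisymm
  · rw [laurentBaseChange, adjoin_le_iff]
    rintro _ ⟨y, hy, rfl⟩
    have hy' : y ∈ IntermediateField.adjoin ℚ (divisorExpansions N) := hy
    rw [SetLike.mem_coe]
    clear hy
    induction hy' using IntermediateField.adjoin_induction with
    | mem x hx =>
      obtain ⟨d, hd, hdN, rfl⟩ := hx
      rw [hj d]
      exact jqModCd_mem_full L N hdN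
    | algebraMap c =>
      have : coeffEmb L (algebraMap ℚ (LaurentSeries ℚ) c) =
          algebraMap L (LaurentSeries L) (algebraMap ℚ L c) := by
        rw [algebraMap_laurentSeries_eq_single, algebraMap_laurentSeries_eq_single, coeffEmb,
          coeffMap_single]
      rw [this]
      exact (modularFunctionFieldFullC L N).algebraMap_mem _
    | add x y hx hy ihx ihy => rw [map_add]; exact add_mem ihx ihy
    | inv x hx ihx => rw [map_inv₀]; exact inv_mem ihx
    | mul x y hx hy ihx ihy => rw [map_mul]; exact mul_mem ihx ihy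
  · rw [modularFunctionFieldFullC, adjoin_le_iff]
    rintro _ ⟨d, hd, hdN, rfl⟩
    rw [← hj d]
    exact coeffEmb_mem_laurentBaseChange L (jqd_mem_full N hdN)

variable [IsAlgClosed L]

instance isFF_laurentBaseChange (N : ℕ) [NeZero N] :
    IsFF L (laurentBaseChange L (modularFunctionFieldFull N)) := by
  rw [laurentBaseChange_full]
  exact isFF_fullC L N

end BaseChange

end Fermat.Agent.HeckeRed
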