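import Mathlib
import Fermat.Prelude.Def_FLTPrelim_Ramification

/-!
# Residue fields of valuation rings of algebraically closed fields
-/

set_option autoImplicit false

noncomputable section

open Polynomial

namespace Fermat.Agent.HeckeRed

variable {L : Type*} [Field L] (A : ValuationSubring L)

theorem isAlgClosed_residueField [IsAlgClosed L] : IsAlgClosed (IsLocalRing.ResidueField A) := by
  apply IsAlgClosed.of_exists_root
  intro p hp hirr
  have hl : p ∈ lifts (IsLocalRing.residue A) := by
    rw [lifts_iff_coeff_lifts]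
    intro n
    exact IsLocalRing.residue_surjective _
  obtain ⟨q, hq, hdeg, hmon⟩ := lifts_and_natDegree_eq_and_monic hl hp
  have hd : (q.map A.subtype).degree ≠ 0 := by
    rw [hmon.degree_map]
    intro h0
    have h1 : q.natDegree = 0 := natDegree_eq_of_degree_eq_some h0
    rw [h1] at hdeg
    have h2 := hirr.natDegree_pos
    omega
  obtain ⟨x, hx⟩ := IsAlgClosed.exists_root _ hd
  have hint : IsIntegral A x := ⟨q, hmon, by rwa [IsRoot, eval_map] at hx⟩
  obtain ⟨y, rfl⟩ := IsIntegrallyClosed.isIntegral_iff.mp hint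
  refine ⟨IsLocalRing.residue A y, ?_⟩
  rw [← hq, eval_map, eval₂_hom]
  have h3 : eval y q = 0 := by
    have h4 : A.subtype (eval y q) = 0 := by
      rw [← eval₂_hom, ← eval_map]
      exact hx
    exact A.subtype_injective (h4.trans (map_zero _).symm)
  rw [h3, map_zero]

variable {A}

theorem residue_prime_eq_zero {ℓ : ℕ} (hA : A.LiesOverPrime ℓ) :
    ((ℓ : ℕ) : IsLocalRing.ResidueField A) = 0 := by
  have h1 : ((ℓ : A) : L) ∈ A.nonunits := by
    have : ((ℓ : A) : L) = (ℓ : L) := by simp
    rw [this]; exact hA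
  rw [ValuationSubring.coe_mem_nonunits_iff] at h1
  rw [← map_natCast (IsLocalRing.residue A)]
  exact (IsLocalRing.residue_eq_zero_iff _).mpr h1

theorem charP_residueField {ℓ : ℕ} (hℓ : ℓ.Prime) (hA : A.LiesOverPrime ℓ) :
    CharP (IsLocalRing.ResidueField A) ℓ := by
  obtain ⟨r, hr⟩ := CharP.exists (IsLocalRing.ResidueField A)
  have h1 : r ∣ ℓ := (CharP.cast_eq_zero_iff _ r ℓ).mp (residue_prime_eq_zero hA)
  rcases (Nat.dvd_prime hℓ).mp h1 with h | h
  · subst h
    exact absurd hr (CharP.ringChar_ne_one (R := IsLocalRing.ResidueField A) |> fun h2 hr => h2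
      (CharP.eq _ (ringChar.charP _) hr))
  · rwa [← h]

end Fermat.Agent.HeckeRed
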