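import Mathlib
import Fermat.Prelude.Def_ModularCurve_X0ModL
import Fermat.Prelude.Def_ModularCurve_LaurentCoeff
import Fermat.Agent.ModPoly.Twist

/-!
# `p`-th powers of Laurent series in characteristic `p`
-/

set_option autoImplicit false

noncomputable section

open HahnSeries ModularCurve

namespace Fermat.Agent.HeckeRed

open Fermat.Agent.ModPoly

variable {κ : Type*} [Field κ] (p : ℕ) [hp : Fact p.Prime] [CharP κ p]

theorem pow_ofPowerSeries (P : PowerSeries κ) :
    (HahnSeries.ofPowerSeries ℤ κ P) ^ p =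
      qExpand κ p (coeffMap (frobenius κ p) (HahnSeries.ofPowerSeries ℤ κ P)) := by
  have hp0 : p ≠ 0 := hp.out.ne_zero
  have h1 : P ^ p = (P.expand p hp0).map (frobenius κ p) :=
    (MvPowerSeries.map_frobenius_expand p hp0 (f := P)).symm
  rw [← map_pow, h1]
  ext n
  by_cases hn : (p : ℤ) ∣ n
  · obtain ⟨m, rfl⟩ := hn
    rw [qExpand_coeff_mul, coeffMap_coeff]
    rcases lt_or_ge m 0 with hm | hm
    · rw [ofPowerSeries_coeff_of_neg _ hm, map_zero]
      exact ofPowerSeries_coeff_of_neg _
        (mul_neg_of_pos_of_neg (by exact_mod_cast hp.out.pos) hm)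
    · lift m to ℕ using hm
      rw [show (p : ℤ) * (m : ℤ) = ((p * m : ℕ) : ℤ) by push_cast; ring,
        HahnSeries.ofPowerSeries_apply_coeff, HahnSeries.ofPowerSeries_apply_coeff,
        PowerSeries.coeff_map, PowerSeries.coeff_expand_mul]
  · rw [qExpand_coeff_of_not_dvd _ _ hn]
    rcases lt_or_ge n 0 with hm | hm
    · exact ofPowerSeries_coeff_of_neg _ hm
    · lift n to ℕ using hm
      rw [HahnSeries.ofPowerSeries_apply_coeff, PowerSeries.coeff_map,
        PowerSeries.coeff_expand_of_not_dvd _ _ _ (fun h => hn (by exact_mod_cast h)), map_zero]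

/-- **Frobenius on Laurent series.** -/
theorem pow_char_laurent (z : LaurentSeries κ) :
    z ^ p = qExpand κ p (coeffMap (frobenius κ p) z) := by
  rw [← z.single_order_mul_powerSeriesPart, mul_pow, map_mul, map_mul, pow_ofPowerSeries]
  congr 1
  rw [coeffMap_single, qExpand_single, RingHom.map_one, HahnSeries.single_pow, one_pow, nsmul_eq_mul]

theorem qExpand_injective' (d : ℕ) [NeZero d] : Function.Injective (qExpand κ d) :=
  (qExpand κ d).injective

end Fermat.Agent.HeckeRed
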