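import Fermat.Prelude.Def_ModularCurve_HeckeModule
import Fermat.Agent.Frob.Exists
import Fermat.Agent.Frob.QbarInst

/-!
# Assembly of the specialization statement from a specialization map on `Pic⁰`
-/

set_option autoImplicit false

noncomputable section

open AlgebraicCurve ModularCurve

namespace Fermat.Agent.HeckeRed

variable (N ℓ : ℕ) [NeZero N]

/-- A good specialization map at `A ∣ ℓ`. -/
structure SpecPackage (hℓ : ℓ.Prime) (A : ValuationSubring (AlgebraicClosure ℚ)) where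
  /-- target -/
  X : Type
  /-- group structure -/
  inst : AddCommGroup X
  /-- specialization -/
  sp : JZero N →+ X
  /-- Frobenius -/
  Fr : X →+ X
  /-- inverse of Frobenius -/
  Fr' : X →+ X
  inv : ∀ y, Fr' (Fr y) = y
  hecke : ∀ q : Nat.Primes, (q : ℕ) ≠ ℓ → ∀ x, sp x = 0 → sp (heckeOperatorBar N q x) = 0
  es : ∀ x, sp (heckeOperatorBar N ⟨ℓ, hℓ⟩ x) = Fr (sp x) + ℓ • Fr' (sp x)
  inertia : ∀ σ ∈ A.inertiaSubgroupIn ℚ, ∀ x : JZero N, sp (σ • x) = sp x
  frob : ∀ σ : AlgebraicClosure ℚ ≃ₐ[ℚ] AlgebraicClosure ℚ, A.IsFrobeniusAt σ ℓ →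
    ∀ x : JZero N, sp (σ • x) = Fr (sp x)
  tors : ∀ m : ℕ, ¬ ℓ ∣ m → ∀ x : JZero N, m • x = 0 → sp x = 0 → x = 0

attribute [instance] SpecPackage.inst

variable {N ℓ}

theorem SpecPackage.hecke' {hℓ : ℓ.Prime} {A : ValuationSubring (AlgebraicClosure ℚ)}
    (P : SpecPackage N ℓ hℓ A) (q : Nat.Primes) (x : JZero N) (hx : P.sp x = 0) :
    P.sp (heckeOperatorBar N q x) = 0 := by
  by_cases h : (q : ℕ) = ℓ
  · have hq : q = ⟨ℓ, hℓ⟩ := Subtype.ext h
    rw [hq, P.es, hx, map_zero, map_zero, smul_zero, add_zero]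
  · exact P.hecke q h x hx

theorem SpecPackage.heckeEval {hℓ : ℓ.Prime} {A : ValuationSubring (AlgebraicClosure ℚ)}
    (P : SpecPackage N ℓ hℓ A) (hcomm : HeckeOperatorsCommuteBar N) (T : HeckeAlg) :
    ∀ x : JZero N, P.sp x = 0 → P.sp (heckeEvalBar hcomm T x) = 0 := by
  induction T using MvPolynomial.induction_on with
  | C a =>
    intro x hx
    rw [heckeEvalBar_C, Module.End.intCast_apply, map_zsmul, hx, smul_zero]
  | add p q hp hq =>
    intro x hx
    rw [map_add, LinearMap.add_apply, map_add, hp x hx, hq x hx, add_zero]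
  | mul_X p q hp =>
    intro x hx
    rw [map_mul, Module.End.mul_apply]
    apply hp
    have : heckeEvalBar hcomm (MvPolynomial.X q) = heckeOperatorBar N q :=
      heckeEvalBar_heckeGen hcomm q
    rw [this]
    exact P.hecke' q x hx

theorem specializationExists_of_package (N p : ℕ) [NeZero N] (hcomm : HeckeOperatorsCommuteBar N)
    (hP : ∀ ℓ : ℕ, (hℓ : ℓ.Prime) → ¬ ℓ ∣ N → ∀ A : ValuationSubring (AlgebraicClosure ℚ),
      A.LiesOverPrime ℓ → Nonempty (SpecPackage N ℓ hℓ A)) :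
    letI := heckeModuleBar N
    ∀ (_ : SMulCommClass (AlgebraicClosure ℚ ≃ₐ[ℚ] AlgebraicClosure ℚ) HeckeAlg (JZero N)),
      SpecializationExists (K := ℚ) (L := AlgebraicClosure ℚ) N p (JZero N) := by
  letI := heckeModuleBar N
  intro hsm ℓ hℓ hℓNp A hA
  have hℓN : ¬ ℓ ∣ N := fun h => hℓNp (h.mul_right p)
  have hℓp : ¬ ℓ ∣ p := fun h => hℓNp (h.mul_left N)
  obtain ⟨P⟩ := hP ℓ hℓ hℓN A hA
  obtain ⟨σ₀, hσ₀⟩ := Fermat.Agent.Frob.exists_isFrobeniusAt hℓ hA
  let W : Submodule HeckeAlg (JZero N) :=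
    { carrier := {x | P.sp x = 0}
      add_mem' := fun {a b} ha hb => by
        show P.sp (a + b) = 0
        have ha' : P.sp a = 0 := ha
        have hb' : P.sp b = 0 := hb
        rw [map_add, ha', hb', add_zero]
      zero_mem' := map_zero _
      smul_mem' := fun T x hx => by
        show P.sp (T • x) = 0
        have h1 := heckeModuleBar_smul_def hcomm T x
        have h2 := P.heckeEval hcomm T x hx
        rw [← h1] at h2
        exact h2 }
  have hW : ∀ x : JZero N, x ∈ W ↔ P.sp x = 0 := fun x => Iff.rfl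
  have hmk : ∀ x y : JZero N, W.mkQ x = W.mkQ y ↔ P.sp x = P.sp y := by
    intro x y
    rw [Submodule.mkQ_apply, Submodule.mkQ_apply, Submodule.Quotient.eq, hW, map_sub, sub_eq_zero]
  let F : (JZero N ⧸ W) →+ (JZero N ⧸ W) := QuotientAddGroup.map W.toAddSubgroup W.toAddSubgroup
    (DistribMulAction.toAddMonoidHom (JZero N) σ₀) (by
      intro x hx
      have hx' : P.sp x = 0 := hx
      show P.sp (σ₀ • x) = 0
      rw [P.frob σ₀ hσ₀, hx', map_zero])
  have hF : ∀ x : JZero N, F (W.mkQ x) = W.mkQ (σ₀ • x) := fun x => rfl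
  have hsurj : ∀ y : JZero N ⧸ W, ∃ x, W.mkQ x = y := fun y => Submodule.mkQ_surjective W y
  refine ⟨JZero N ⧸ W, inferInstance, inferInstance, (W.mkQ : JZero N →ₗ[HeckeAlg] _).toAddMonoidHom,
    F, ?_, ?_⟩
  · refine ⟨fun T x => map_smul W.mkQ T x, fun σ hσ x => ?_, fun σ hσ x => ?_,
      fun x hx hsp => ?_⟩
    · exact (hmk _ _).mpr (P.inertia σ hσ x)
    · show W.mkQ (σ • x) = F (W.mkQ x)
      rw [hF, hmk, P.frob σ hσ, P.frob σ₀ hσ₀]
    · obtain ⟨n, hn⟩ := hx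
      have hsp' : W.mkQ x = W.mkQ 0 := by rw [map_zero]; exact hsp
      rw [hmk, map_zero] at hsp'
      exact P.tors (p ^ n) (fun h => hℓp (hℓ.dvd_of_dvd_pow h)) x hn hsp'
  · intro y
    obtain ⟨x, rfl⟩ := hsurj y
    rw [hF, hF, ← map_smul, ← map_nsmul, ← map_sub, ← map_add, ← map_zero W.mkQ, hmk, map_zero,
      map_add, map_sub, map_nsmul]
    have h1 := heckeModuleBar_heckeGen_smul hcomm ⟨ℓ, hℓ⟩ (σ₀ • x)
    have h2 : P.sp (heckeGen ⟨ℓ, hℓ⟩ • (σ₀ • x)) =
        P.Fr (P.sp (σ₀ • x)) + ℓ • P.Fr' (P.sp (σ₀ • x)) := by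
      rw [← P.es]
      exact congrArg P.sp h1
    rw [h2, P.frob σ₀ hσ₀, P.frob σ₀ hσ₀, P.inv]
    abel

end Fermat.Agent.HeckeRed
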