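import Fermat.Agent.HeckeRed.Abstract
import Fermat.Agent.ModDeg.General

/-!
# Semilinear automorphisms acting on coefficients
-/

set_option autoImplicit false

noncomputable section

open AlgebraicCurve ModularCurve IntermediateField HahnSeries

namespace Fermat.Agent.HeckeRed

variable {κ : Type*} [Field κ] (E₁ : IntermediateField κ (LaurentSeries κ)) (σ : κ ≃+* κ)
  (h : ∀ x ∈ E₁, coeffMap (σ : κ →+* κ) x ∈ E₁)
  (h' : ∀ x ∈ E₁, coeffMap (σ.symm : κ →+* κ) x ∈ E₁)

/-- coefficientwise automorphism -/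
def coefRingAut : E₁ ≃+* E₁ where
  toFun x := ⟨coeffMap (σ : κ →+* κ) (x : LaurentSeries κ), h _ x.2⟩
  invFun x := ⟨coeffMap (σ.symm : κ →+* κ) (x : LaurentSeries κ), h' _ x.2⟩
  left_inv x := Subtype.ext <| by
    show coeffMap (σ.symm : κ →+* κ) (coeffMap (σ : κ →+* κ) (x : LaurentSeries κ)) = x
    rw [coeffMap_coeffMap, coeffMap_congr (g := RingHom.id κ)
      (RingHom.ext fun a => σ.symm_apply_apply a), coeffMap_id]
  right_inv x := Subtype.ext <| by
    show coeffMap (σ : κ →+* κ) (coeffMap (σ.symm : κ →+* κ) (x : LaurentSeries κ)) = x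
    rw [coeffMap_coeffMap, coeffMap_congr (g := RingHom.id κ)
      (RingHom.ext fun a => σ.apply_symm_apply a), coeffMap_id]
  map_mul' x y := Subtype.ext (map_mul (coeffMap (σ : κ →+* κ)) _ _)
  map_add' x y := Subtype.ext (map_add (coeffMap (σ : κ →+* κ)) _ _)

/-- coefficientwise semilinear automorphism -/
def coefAut : SemilinearAut κ E₁ :=
  ⟨(coefRingAut E₁ σ h h', σ), fun a => Subtype.ext (coeffMap_algebraMap (σ : κ →+* κ) a)⟩

theorem coe_coefAut_smul (x : E₁) : ((coefAut E₁ σ h h' • x : E₁) : LaurentSeries κ) =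
    coeffMap (σ : κ →+* κ) (x : LaurentSeries κ) := rfl

theorem coe_one_smul (x : E₁) : (((1 : SemilinearAut κ E₁) • x : E₁) : LaurentSeries κ) =
    coeffMap (RingHom.id κ) (x : LaurentSeries κ) := by
  rw [coeffMap_id, one_smul]

section Frob

variable (hst : ∀ (τ : κ →+* κ), ∀ x ∈ E₁, coeffMap τ x ∈ E₁)
  (ℓ : ℕ) [Fact ℓ.Prime] [CharP κ ℓ] [PerfectRing κ ℓ]

/-- Frobenius on a coefficient stable field of Laurent series in characteristic `ℓ`. -/
def frobAut : SemilinearAut κ E₁ :=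
  coefAut E₁ (frobeniusEquiv κ ℓ) (hst _) (hst _)

theorem coe_frobAut_smul (x : E₁) : ((frobAut E₁ hst ℓ • x : E₁) : LaurentSeries κ) =
    coeffMap (frobenius κ ℓ) (x : LaurentSeries κ) :=
  (coe_coefAut_smul E₁ (frobeniusEquiv κ ℓ) (hst _) (hst _) x).trans
    (coeffMap_congr (RingHom.ext fun _ => rfl) _)

end Frob

end Fermat.Agent.HeckeRed
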