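import Fermat.Agent.Igusa.GaussField
import Fermat.Agent.ModPoly.Twist
import Fermat.Agent.ModPoly.Tuple

/-!
# Functoriality of the Gauss ring
-/

set_option autoImplicit false

noncomputable section

open HahnSeries ModularCurve

namespace Fermat.Agent.HeckeRed

open Fermat.Agent.Igusa Fermat.Agent.ModPoly

variable {L : Type*} [Field L] {A : ValuationSubring L} {κ : Type*} [Field κ] {π : A →+* κ}

/-- Compatible endomorphisms of the rings of Laurent series over `L`, `A`, `κ`. -/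
structure GaussEnd (A : ValuationSubring L) (π : A →+* κ) where
  /-- over `L` -/
  onL : LaurentSeries L →+* LaurentSeries L
  /-- over `A` -/
  onA : LaurentSeries A →+* LaurentSeries A
  /-- over `κ` -/
  onκ : LaurentSeries κ →+* LaurentSeries κ
  commL : ∀ P, onL (coeffMap A.subtype P) = coeffMap A.subtype (onA P)
  commκ : ∀ P, onκ (coeffMap π P) = coeffMap π (onA P)

namespace GaussEnd

variable (Θ : GaussEnd A π)

theorem mem {x : LaurentSeries L} (hx : x ∈ gaussRing A π) : Θ.onL x ∈ gaussRing A π := by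
  obtain ⟨P, Q, hQ, hPQ⟩ := hx
  refine ⟨Θ.onA P, Θ.onA Q, ?_, ?_⟩
  · rw [← Θ.commκ]
    simpa using hQ
  · rw [← Θ.commL, ← Θ.commL, ← map_mul, hPQ]

theorem res {x : LaurentSeries L} (hx : x ∈ gaussRing A π) :
    gaussRes A π ⟨Θ.onL x, Θ.mem hx⟩ = Θ.onκ (gaussRes A π ⟨x, hx⟩) := by
  obtain ⟨P, Q, hQ, hPQ⟩ := id hx
  have hQ' : coeffMap π (Θ.onA Q) ≠ 0 := by
    rw [← Θ.commκ]
    simpa using hQ
  rw [gaussRes_eq ⟨x, hx⟩ hQ hPQ, gaussRes_eq (P := Θ.onA P) (Q := Θ.onA Q) ⟨Θ.onL x, Θ.mem hx⟩ hQ'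
    (by
      show Θ.onL x * _ = _
      rw [← Θ.commL, ← Θ.commL, ← map_mul, hPQ]), map_div₀, Θ.commκ, Θ.commκ]

/-- The converse, for tame fields. -/
theorem mem_iff {F : IntermediateField L (LaurentSeries L)} (hF : IsTameField F)
    {x : LaurentSeries L} (hx : x ∈ F) : Θ.onL x ∈ gaussRing A π ↔ x ∈ gaussRing A π := by
  refine ⟨fun h => ?_, Θ.mem⟩
  by_contra hcon
  have hinv := (mem_or_inv_mem_gaussRing A π hx hF).resolve_left hcon
  have hx0 : x ≠ 0 := fun h0 => hcon (h0 ▸ zero_mem _)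
  have h1 : gaussRes A π ⟨x⁻¹, hinv⟩ = 0 := by
    by_contra hne
    apply hcon
    have := inv_mem_gaussRing (x := ⟨x⁻¹, hinv⟩) hne
    simpa using this
  have h2 := Θ.res hinv
  rw [h1, map_zero] at h2
  have h3 : (⟨Θ.onL x⁻¹, Θ.mem hinv⟩ : gaussRing A π) * ⟨Θ.onL x, h⟩ = 1 := by
    apply Subtype.ext
    show Θ.onL x⁻¹ * Θ.onL x = 1
    rw [← map_mul, inv_mul_cancel₀ hx0, map_one]
  have h4 := congrArg (gaussRes A π) h3
  rw [map_mul, h2, zero_mul, map_one] at h4
  exact zero_ne_one h4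

variable (A π) in
/-- `q ↦ q^d` -/
def qExp (d : ℕ) [NeZero d] : GaussEnd A π where
  onL := qExpand L d
  onA := qExpand A d
  onκ := qExpand κ d
  commL P := (coeffMap_qExpand A.subtype d P).symm
  commκ P := (coeffMap_qExpand π d P).symm

variable (π) in
/-- `q ↦ u q` -/
def twi (u : Aˣ) : GaussEnd A π where
  onL := twist (Units.map (A.subtype : A →* L) u)
  onA := twist u
  onκ := twist (Units.map (π : A →* κ) u)
  commL P := (coeffMap_twist A.subtype u P).symm
  commκ P := (coeffMap_twist π u P).symm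

/-- coefficientwise endomorphisms -/
def coef (σ : L →+* L) (σA : A →+* A) (σκ : κ →+* κ) (h1 : ∀ a : A, σ a = σA a)
    (h2 : ∀ a : A, σκ (π a) = π (σA a)) : GaussEnd A π where
  onL := coeffMap σ
  onA := coeffMap σA
  onκ := coeffMap σκ
  commL P := by
    rw [coeffMap_coeffMap, coeffMap_coeffMap]
    exact coeffMap_congr (RingHom.ext h1) P
  commκ P := by
    rw [coeffMap_coeffMap, coeffMap_coeffMap]
    exact coeffMap_congr (RingHom.ext h2) P

end GaussEnd

end Fermat.Agent.HeckeRed
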