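import Fermat.Agent.HeckeRed.Degrees
import Fermat.Agent.ModDeg.General
import Fermat.Agent.HeckeRed.GaussFunct
import Fermat.Agent.Igusa.BarData

/-!
# Reduction of the modular function fields: degeneracy maps and Galois action
-/

set_option autoImplicit false

noncomputable section

open AlgebraicCurve ModularCurve IntermediateField HahnSeries

namespace Fermat.Agent.HeckeRed

open Fermat.Agent.FunField Fermat.Agent.ModDeg Fermat.Agent.ModPoly Fermat.Agent.Igusa
  Fermat.Agent.Deuring

section Dat

variable {L : Type*} [Field L] [Algebra ℚ L] (A : ValuationSubring L)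
  {κ : Type*} [Field κ] (π : A →+* κ) [IsLocalHom π] (hπ : Function.Surjective π)
  (N : ℕ) [NeZero N] (hN : (N : κ) ≠ 0)

theorem relfinrank_bar : IntermediateField.relfinrank (IntermediateField.adjoin L {jqModC L})
    (modularFunctionFieldFullC L N) = dedekindPsi N :=
  haveI : CharZero L := algebraRat.charZero L
  relfinrank_full L N (Nat.cast_ne_zero.mpr (NeZero.ne N))

/-- The Deuring reduction data of level `N`. -/
def dat : Deuring.Data L κ (laurentBaseChange L (modularFunctionFieldFull N))
    (modularFunctionFieldFullC κ N) :=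
  fullDataOf A π N hπ (dedekindPsi_pos N) (relfinrank_bar N)
    (relfinrank_full κ N hN) (HeckeRed.laurentBaseChange_full L N)

theorem dat_A : (dat A π hπ N hN).A = A := fullDataOf_A _ _ _ _ _ _ _ _

theorem mem_dat {x : laurentBaseChange L (modularFunctionFieldFull N)} :
    x ∈ (dat A π hπ N hN).O ↔ (x : LaurentSeries L) ∈ gaussRing A π :=
  mem_fullDataOf_O _ _ _ _ _ _ _ _

theorem dat_res_aux (𝔇 : Deuring.Data L κ (laurentBaseChange L (modularFunctionFieldFull N))
      (modularFunctionFieldFullC κ N))
    (h𝔇 : 𝔇 = fullDataOf A π N hπ (dedekindPsi_pos N) (relfinrank_bar N)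
      (relfinrank_full κ N hN) (HeckeRed.laurentBaseChange_full L N))
    (hm : ∀ x : 𝔇.O, ((x : laurentBaseChange L (modularFunctionFieldFull N)) :
      LaurentSeries L) ∈ gaussRing A π) (x : 𝔇.O) :
    ((𝔇.res x : modularFunctionFieldFullC κ N) : LaurentSeries κ) =
      gaussRes A π ⟨((x : laurentBaseChange L (modularFunctionFieldFull N)) : LaurentSeries L),
        hm x⟩ := by
  subst h𝔇
  exact fullDataOf_res _ _ _ _ _ _ _ _ _

theorem dat_res (x : (dat A π hπ N hN).O) :
    (((dat A π hπ N hN).res x : modularFunctionFieldFullC κ N) : LaurentSeries κ) =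
      gaussRes A π ⟨((x : laurentBaseChange L (modularFunctionFieldFull N)) : LaurentSeries L),
        (mem_dat A π hπ N hN).mp x.2⟩ :=
  dat_res_aux A π hπ N hN (dat A π hπ N hN) (by rw [dat])
    (fun x => (mem_dat A π hπ N hN).mp x.2) x

omit [NeZero N] in
theorem isTameField_bar : IsTameField (laurentBaseChange L (modularFunctionFieldFull N)) := by
  rw [laurentBaseChange_full]
  exact isTameField_full N

/-- Transport along an endomorphism of Laurent series. -/
theorem dat_end (Θ : GaussEnd A π) {M : ℕ} [NeZero M] (hM : (M : κ) ≠ 0)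
    (f : (dat A π hπ N hN).O) (g : laurentBaseChange L (modularFunctionFieldFull M))
    (hg : (g : LaurentSeries L) =
      Θ.onL ((f : laurentBaseChange L (modularFunctionFieldFull N)) : LaurentSeries L)) :
    ∃ h : g ∈ (dat A π hπ M hM).O,
      (((dat A π hπ M hM).res ⟨g, h⟩ : modularFunctionFieldFullC κ M) : LaurentSeries κ) =
        Θ.onκ ((dat A π hπ N hN).res f : modularFunctionFieldFullC κ N) := by
  have h1 := (mem_dat A π hπ N hN).mp f.2
  have h2 : g ∈ (dat A π hπ M hM).O := by
    rw [mem_dat, hg]
    exact Θ.mem h1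
  refine ⟨h2, ?_⟩
  rw [dat_res, dat_res, ← Θ.res h1]
  exact gaussRes_congr hg

end Dat

end Fermat.Agent.HeckeRed
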