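import Fermat.Agent.HeckeRed.SpecHecke
import Fermat.Agent.HeckeRed.Dat
import Fermat.Agent.HeckeRed.Residue
import Fermat.Agent.HeckeRed.Coef
import Fermat.Agent.HeckeRed.Assemble

/-!
# Construction of the specialization package for `J₀(N)`
-/

set_option autoImplicit false

noncomputable section

open AlgebraicCurve ModularCurve IntermediateField HahnSeries

namespace Fermat.Agent.HeckeRed

open Fermat.Agent.FunField Fermat.Agent.ModDeg Fermat.Agent.ModPoly Fermat.Agent.Igusa
  Fermat.Agent.Deuring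

section Concrete

variable {L : Type*} [Field L] [Algebra ℚ L] [IsAlgClosed L] (A : ValuationSubring L)
  {κ : Type*} [Field κ] [IsAlgClosed κ] (π : A →+* κ) [IsLocalHom π] (hπ : Function.Surjective π)
  (N : ℕ) [NeZero N] (hN : (N : κ) ≠ 0)

omit [IsAlgClosed L] [IsAlgClosed κ] in
theorem isGauss_dat : IsGauss π (dat A π hπ N hN) :=
  ⟨fun _ => mem_dat A π hπ N hN, fun x => dat_res A π hπ N hN x⟩

theorem heckeOperatorAlong_apply (q : ℕ) [NeZero q]
    (x : Pic0 L (laurentBaseChange L (modularFunctionFieldFull N))) :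
    heckeOperatorAlong L N q x = Pic0.correspondence (heckeBetaBar L N q) (heckeAlphaBar L N q)
      (betaInt L N q) (alphaInt L N q)
      (fundamentalIdentityAlong _ _ (finiteAlong_of_isFF _)) (finiteAlong_of_isFF _)
      (normFormulaAlong _ _) x := by
  rw [heckeOperatorAlong_eq (alphaInt L N q) (betaInt L N q)
    (fundamentalIdentityAlong _ _ (finiteAlong_of_isFF _)) (finiteAlong_of_isFF _)
    (normFormulaAlong _ _)]
  rfl

variable {r : Place L (laurentBaseChange L (modularFunctionFieldFull N)) →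
  Place κ (modularFunctionFieldFullC κ N)} (hr : IsReduction (dat A π hπ N hN) r)

theorem spHom_hecke_ne (q : ℕ) [hq : Fact q.Prime] (hqκ : ((N * q : ℕ) : κ) ≠ 0)
    (x : Pic0 L (laurentBaseChange L (modularFunctionFieldFull N)))
    (hx : spHom hr x = 0) : spHom hr (heckeOperatorAlong L N q x) = 0 := by
  have : CharZero L := algebraRat.charZero L
  have hL : ((N * q : ℕ) : L) ≠ 0 :=
    Nat.cast_ne_zero.mpr (mul_ne_zero (NeZero.ne N) hq.out.ne_zero)
  rw [heckeOperatorAlong_apply]
  have := abs_spHom_corr (isGauss_dat A π hπ N hN) (isGauss_dat A π hπ (N * q) hqκ) hr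
    (laurentBaseChange_full L N) (laurentBaseChange_full L (N * q)) hL (heckeAlphaBar L N q)
    (heckeBetaBar L N q) (coe_heckeAlphaBar N q) (coe_heckeBetaBar N q) (betaInt L N q)
    (alphaInt L N q) (fundamentalIdentityAlong _ _ (finiteAlong_of_isFF _))
    (finiteAlong_of_isFF _) (normFormulaAlong _ _) rfl rfl hqκ (alpha1 κ N q) (beta1 κ N q)
    (coe_alpha1 κ N q) (coe_beta1 κ N q) x
  rw [this, hx, map_zero]

omit [IsAlgClosed κ] [NeZero N] in
theorem full_stable (τ : κ →+* κ) (x : LaurentSeries κ)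
    (hx : x ∈ modularFunctionFieldFullC κ N) : coeffMap τ x ∈ modularFunctionFieldFullC κ N :=
  coeffMap_mem_full τ hx

theorem spHom_hecke_eq (p : ℕ) [hp : Fact p.Prime] [CharP κ p] [PerfectRing κ p] (hpN : ¬ p ∣ N)
    (x : Pic0 L (laurentBaseChange L (modularFunctionFieldFull N))) :
    spHom hr (heckeOperatorAlong L N p x) =
      frobAut (modularFunctionFieldFullC κ N) (full_stable N) p • spHom hr x +
        p • ((frobAut (modularFunctionFieldFullC κ N) (full_stable N) p)⁻¹ • spHom hr x) := by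
  have : CharZero L := algebraRat.charZero L
  have hL : ((N * p : ℕ) : L) ≠ 0 :=
    Nat.cast_ne_zero.mpr (mul_ne_zero (NeZero.ne N) hp.out.ne_zero)
  rw [heckeOperatorAlong_apply]
  exact abs_spHom_es (isGauss_dat A π hπ N hN) hr
    (laurentBaseChange_full L N) (laurentBaseChange_full L (N * p)) hL (heckeAlphaBar L N p)
    (heckeBetaBar L N p) (coe_heckeAlphaBar N p) (coe_heckeBetaBar N p) (betaInt L N p)
    (alphaInt L N p) (fundamentalIdentityAlong _ _ (finiteAlong_of_isFF _))
    (finiteAlong_of_isFF _) (normFormulaAlong _ _) hpN (isTameField_bar N)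
    (frobAut (modularFunctionFieldFullC κ N) (full_stable N) p)
    (coe_frobAut_smul (modularFunctionFieldFullC κ N) (full_stable N) p) x

theorem spHom_galois (σ : L ≃ₐ[ℚ] L) (g₁ : SemilinearAut κ (modularFunctionFieldFullC κ N))
    (σA : A →+* A) (σκ : κ →+* κ) (h1 : ∀ a : A, σ a = σA a)
    (h2 : ∀ a : A, σκ (π a) = π (σA a))
    (hg₁ : ∀ x : modularFunctionFieldFullC κ N,
      ((g₁ • x : modularFunctionFieldFullC κ N) : LaurentSeries κ) =
        coeffMap σκ (x : LaurentSeries κ))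
    (x : Pic0 L (laurentBaseChange L (modularFunctionFieldFull N))) :
    spHom hr (σ • x) = g₁ • spHom hr x := by
  rw [galois_smul_pic0_def]
  exact spHom_smul hr (arithmeticGalois (modularFunctionFieldFull N) σ) g₁
    (galois_compat (isGauss_dat A π hπ N hN) (arithmeticGalois (modularFunctionFieldFull N) σ)
      g₁ (σ : L →+* L) σA σκ h1 h2 (coe_arithmeticGalois_smul _ σ) hg₁) x

end Concrete

section Qbar

variable {L : Type*} [Field L] [Algebra ℚ L] {A : ValuationSubring L}

/-- The action of the decomposition group on the valuation ring. -/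
theorem residue_smul_decomp (τ : A.decompositionSubgroup ℚ) (a : A) :
    IsLocalRing.residue A (MulSemiringAction.toRingHom (A.decompositionSubgroup ℚ) A τ a) =
      τ • IsLocalRing.residue A a := rfl

theorem exists_of_inertia {σ : L ≃ₐ[ℚ] L} (hσ : σ ∈ A.inertiaSubgroupIn ℚ) :
    ∃ σA : A →+* A, (∀ a : A, σ a = σA a) ∧
      ∀ a : A, RingHom.id _ (IsLocalRing.residue A a) = IsLocalRing.residue A (σA a) := by
  obtain ⟨τ, hτ, rfl⟩ := hσ
  refine ⟨MulSemiringAction.toRingHom (A.decompositionSubgroup ℚ) A τ, fun a => rfl, fun a => ?_⟩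
  rw [residue_smul_decomp]
  have h1 : MulSemiringAction.toRingAut (A.decompositionSubgroup ℚ)
      (IsLocalRing.ResidueField A) τ = 1 := hτ
  have h2 := congrArg (fun e => e (IsLocalRing.residue A a)) h1
  exact h2.symm

theorem exists_of_frobenius {ℓ : ℕ} [Fact ℓ.Prime] [CharP (IsLocalRing.ResidueField A) ℓ]
    {σ : L ≃ₐ[ℚ] L} (hσ : A.IsFrobeniusAt σ ℓ) :
    ∃ σA : A →+* A, (∀ a : A, σ a = σA a) ∧
      ∀ a : A, frobenius (IsLocalRing.ResidueField A) ℓ (IsLocalRing.residue A a) =
        IsLocalRing.residue A (σA a) := by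
  refine ⟨MulSemiringAction.toRingHom (A.decompositionSubgroup ℚ) A
    ⟨σ, hσ.mem_decompositionSubgroup⟩, fun a => rfl, fun a => ?_⟩
  rw [residue_smul_decomp, hσ.smul_residue_eq, frobenius_def]

end Qbar

section Final

variable {N ℓ : ℕ} [NeZero N]

/-- **The specialization package**, given the equality of genera. -/
theorem nonempty_package_aux (hℓ : ℓ.Prime) (hℓN : ¬ ℓ ∣ N)
    (A : ValuationSubring (AlgebraicClosure ℚ)) (κ : Type) [Field κ] [IsAlgClosed κ]
    [i2 : CharP κ ℓ] [i3 : Fact ℓ.Prime] [PerfectRing κ ℓ] (π : A →+* κ) [IsLocalHom π]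
    (hπ : Function.Surjective π)
    (hin : ∀ σ ∈ A.inertiaSubgroupIn ℚ, ∃ σA : A →+* A, (∀ a : A, σ a = σA a) ∧
      ∀ a : A, RingHom.id κ (π a) = π (σA a))
    (hfr : ∀ σ : AlgebraicClosure ℚ ≃ₐ[ℚ] AlgebraicClosure ℚ, A.IsFrobeniusAt σ ℓ →
      ∃ σA : A →+* A, (∀ a : A, σ a = σA a) ∧
      ∀ a : A, frobenius κ ℓ (π a) = π (σA a)) {g : ℤ}
    (hRR : RRLarge (AlgebraicClosure ℚ) (modularFunctionFieldBar N) g)
    (hRR₁ : RRLarge κ (modularFunctionFieldFullC κ N) g) :
    Nonempty (SpecPackage N ℓ hℓ A) := by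
  have hN : (N : κ) ≠ 0 := fun h => hℓN ((CharP.cast_eq_zero_iff _ ℓ N).mp h)
  obtain ⟨r, hr1, hr2⟩ := (dat A π hπ N hN).exists_reduction hRR hRR₁
  have hr : IsReduction (dat A π hπ N hN) r := ⟨hr1, hr2⟩
  let g₁ := frobAut (modularFunctionFieldFullC κ N) (full_stable N) ℓ
  refine ⟨{
    X := Pic0 κ (modularFunctionFieldFullC κ N)
    inst := inferInstance
    sp := spHom hr
    Fr := DistribSMul.toAddMonoidHom _ g₁
    Fr' := DistribSMul.toAddMonoidHom _ g₁⁻¹
    inv := fun y => inv_smul_smul g₁ y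
    hecke := fun q hq x hx => ?_
    es := fun x => ?_
    inertia := fun σ hσ x => ?_
    frob := fun σ hσ x => ?_
    tors := fun m hm x hx hsp => ?_ }⟩
  · have i6 : Fact (q : ℕ).Prime := ⟨q.2⟩
    rw [heckeOperatorBar_apply]
    refine spHom_hecke_ne A π hπ N hN hr q ?_ x hx
    intro h
    rw [CharP.cast_eq_zero_iff _ ℓ] at h
    rcases hℓ.dvd_mul.mp h with h1 | h1
    · exact hℓN h1
    · exact hq ((Nat.prime_dvd_prime_iff_eq hℓ q.2).mp h1).symm
  · exact (congrArg (spHom hr) (heckeOperatorBar_apply N (⟨ℓ, hℓ⟩ : Nat.Primes) x)).trans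
      (spHom_hecke_eq A π hπ N hN hr ℓ hℓN x)
  · obtain ⟨σA, h1, h2⟩ := hin σ hσ
    have h3 := spHom_galois A π hπ N hN hr σ 1 σA (RingHom.id _) h1 h2
      (coe_one_smul _) x
    rwa [one_smul] at h3
  · obtain ⟨σA, h1, h2⟩ := hfr σ hσ
    exact spHom_galois A π hπ N hN hr σ g₁ σA _ h1 h2
      (coe_frobAut_smul _ (full_stable N) ℓ) x
  · exact spHom_torsion hr hRR hRR₁ (m := m) (fun h => hm ((CharP.cast_eq_zero_iff _ ℓ m).mp h))
      x hx hsp

/-- Equality of genera at level `N` (for large Riemann–Roch spaces), for the residue fields of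
the valuation rings of `ℚ̄`. -/
def GenusEq (N : ℕ) [NeZero N] : Prop :=
  ∀ (A : ValuationSubring (AlgebraicClosure ℚ)) [IsAlgClosed (IsLocalRing.ResidueField A)],
    (N : IsLocalRing.ResidueField A) ≠ 0 → ∃ g : ℤ,
      RRLarge (AlgebraicClosure ℚ) (modularFunctionFieldBar N) g ∧
        RRLarge (IsLocalRing.ResidueField A)
          (modularFunctionFieldFullC (IsLocalRing.ResidueField A) N) g

theorem nonempty_package (hG : GenusEq N) (hℓ : ℓ.Prime) (hℓN : ¬ ℓ ∣ N)
    (A : ValuationSubring (AlgebraicClosure ℚ)) (hA : A.LiesOverPrime ℓ) :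
    Nonempty (SpecPackage N ℓ hℓ A) := by
  have i1 : IsAlgClosed (IsLocalRing.ResidueField A) := isAlgClosed_residueField A
  have i2 : CharP (IsLocalRing.ResidueField A) ℓ := charP_residueField hℓ hA
  have i3 : Fact ℓ.Prime := ⟨hℓ⟩
  have i4 : PerfectRing (IsLocalRing.ResidueField A) ℓ := inferInstance
  have i5 : IsLocalHom (IsLocalRing.residue A) := inferInstance
  obtain ⟨g, h1, h2⟩ := hG A (fun h =>
    hℓN ((CharP.cast_eq_zero_iff _ ℓ N).mp h))
  exact nonempty_package_aux hℓ hℓN A (IsLocalRing.ResidueField A) (IsLocalRing.residue A)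
    IsLocalRing.residue_surjective (fun σ hσ => exists_of_inertia hσ)
    (fun σ hσ => exists_of_frobenius hσ) h1 h2

/-- **S37**, given the equality of genera. -/
theorem specializationExists (N p : ℕ) [NeZero N] (hG : GenusEq N)
    (hcomm : HeckeOperatorsCommuteBar N) :
    letI := heckeModuleBar N
    ∀ (_ : SMulCommClass (AlgebraicClosure ℚ ≃ₐ[ℚ] AlgebraicClosure ℚ) HeckeAlg (JZero N)),
      SpecializationExists (K := ℚ) (L := AlgebraicClosure ℚ) N p (JZero N) :=
  specializationExists_of_package N p hcomm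
    (fun _ hℓ hℓN A hA => nonempty_package hG hℓ hℓN A hA)

end Final

end Fermat.Agent.HeckeRed
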