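import Fermat.Agent.HeckeRed.Along

/-!
# The specialization homomorphism on `Pic⁰`
-/

set_option autoImplicit false

noncomputable section

open AlgebraicCurve Module

namespace Fermat.Agent.HeckeRed

open Fermat.Agent.FunField Fermat.Agent.FunField.PlaceLemmas Fermat.Agent.Deuring
  Fermat.Agent.PushPull

variable {L k F F₁ : Type*} [Field L] [Field k] [Field F] [Field F₁] [Algebra L F]
  [Algebra k F₁] [IsFF L F] [IsFF k F₁] [IsAlgClosed L] [IsAlgClosed k]

theorem degree_mapDomain (r : Place L F → Place k F₁) (D : Divisor L F) :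
    Divisor.degree (Finsupp.mapDomain r D) = Divisor.degree D := by
  induction D using Finsupp.induction with
  | zero => simp
  | single_add P n D _ _ ih =>
    rw [Finsupp.mapDomain_add, map_add, map_add, ih, Finsupp.mapDomain_single,
      Divisor.degree_single, Divisor.degree_single, Deuring.deg_eq_one, Deuring.deg_eq_one]

variable {𝔇 : Data L k F F₁} {r : Place L F → Place k F₁} (hr : IsReduction 𝔇 r)

include hr in
omit [IsAlgClosed k] [IsAlgClosed L] [IsFF L F] [IsFF k F₁] in
theorem mapDomain_mem_principal {D : Divisor L F}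
    (hD : D ∈ Divisor.principal (K := L) (F := F)) :
    Finsupp.mapDomain r D ∈ Divisor.principal (K := k) (F := F₁) := by
  obtain ⟨f, hf, hfD⟩ := hD
  obtain ⟨c, hc, h, hres⟩ := 𝔇.exists_smul_res_ne_zero hf
  refine ⟨𝔇.res ⟨c • f, h⟩, hres, fun Q => ?_⟩
  refine hr.div ⟨c • f, h⟩ hres D (fun P => ?_) Q
  rw [hfD P, ord_smul_of_ne_zero P hc]

/-- Specialization on divisors of degree zero. -/
def spDiv (r : Place L F → Place k F₁) :
    Divisor.degZero (K := L) (F := F) →+ Divisor.degZero (K := k) (F := F₁) :=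
  ((Finsupp.mapDomain.addMonoidHom r).domRestrict _).codRestrict _ fun D => by
    rw [Divisor.mem_degZero]
    exact (degree_mapDomain r D.1).trans D.2

@[simp] theorem coe_spDiv (r : Place L F → Place k F₁) (D : Divisor.degZero (K := L) (F := F)) :
    (spDiv r D : Divisor k F₁) = Finsupp.mapDomain r (D : Divisor L F) := rfl

/-- The specialization homomorphism. -/
def spHom : Pic0 L F →+ Pic0 k F₁ :=
  QuotientAddGroup.map _ _ (spDiv r) (by
    rintro ⟨D, hD0⟩ hD
    simp only [AddSubgroup.mem_addSubgroupOf] at hD ⊢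
    exact mapDomain_mem_principal hr hD)

theorem spHom_mk (D : Divisor.degZero (K := L) (F := F)) :
    spHom hr (Pic0.mk D) = Pic0.mk (spDiv r D) := rfl

theorem mk_eq_zero_iff' {K M : Type*} [Field K] [Field M] [Algebra K M]
    (D : Divisor.degZero (K := K) (F := M)) :
    Pic0.mk D = 0 ↔ (D : Divisor K M) ∈ Divisor.principal (K := K) (F := M) := by
  rw [Pic0.mk, QuotientAddGroup.eq_zero_iff, AddSubgroup.mem_addSubgroupOf]

/-- Equivariance of the specialization under semilinear automorphisms. -/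
theorem spHom_smul (g : SemilinearAut L F) (g₁ : SemilinearAut k F₁)
    (hg : ∀ f : 𝔇.O, ∃ h : g • (f : F) ∈ 𝔇.O, 𝔇.res ⟨g • (f : F), h⟩ = g₁ • 𝔇.res f)
    (x : Pic0 L F) : spHom hr (g • x) = g₁ • spHom hr x := by
  obtain ⟨D, rfl⟩ := Pic0.mk_surjective x
  rw [SemilinearAut.pic0_smul_mk, spHom_mk, spHom_mk, SemilinearAut.pic0_smul_mk]
  congr 1
  apply Subtype.ext
  rw [coe_spDiv, SemilinearAut.coe_degZeroSMulHom, SemilinearAut.coe_degZeroSMulHom, coe_spDiv,
    SemilinearAut.divisor_smul_def, SemilinearAut.divisor_smul_def, ← Finsupp.mapDomain_comp,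
    ← Finsupp.mapDomain_comp]
  congr 1
  funext P
  exact reduction_smul hr g g₁ hg P

section Corr

variable {F' F₁' : Type*} [Field F'] [Field F₁'] [Algebra L F'] [Algebra k F₁']
  [IsFF L F'] [IsFF k F₁']

/-- Specialization commutes with correspondences. -/
theorem spHom_correspondence (φ ψ : F →ₐ[L] F') (hφ : φ.toRingHom.IsIntegral)
    (hψ : ψ.toRingHom.IsIntegral) (hFI : FundamentalIdentityAlong L φ hφ)
    (hφf : FiniteAlong L φ) (hψf : FiniteAlong L ψ) (hNF : NormFormulaAlong L ψ hψf)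
    (φ₁ ψ₁ : F₁ →ₐ[k] F₁') (hφ₁ : φ₁.toRingHom.IsIntegral)
    (hψ₁ : ψ₁.toRingHom.IsIntegral) (hFI₁ : FundamentalIdentityAlong k φ₁ hφ₁)
    (hφf₁ : FiniteAlong k φ₁) (hψf₁ : FiniteAlong k ψ₁) (hNF₁ : NormFormulaAlong k ψ₁ hψf₁)
    (hdeg : finrankAlong L φ = finrankAlong k φ₁)
    (hN : ∀ f : 𝔇.O, 𝔇.res f ≠ 0 → ∃ g : 𝔇.O, (g : F) = normAlong ψ (φ f) ∧
      𝔇.res g = normAlong ψ₁ (φ₁ (𝔇.res f))) (x : Pic0 L F) :
    spHom hr (Pic0.correspondence φ ψ hφ hψ hFI hψf hNF x) =
      Pic0.correspondence φ₁ ψ₁ hφ₁ hψ₁ hFI₁ hψf₁ hNF₁ (spHom hr x) := by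
  obtain ⟨D, rfl⟩ := Pic0.mk_surjective x
  rw [Pic0.correspondence_mk, spHom_mk, spHom_mk, Pic0.correspondence_mk]
  congr 1
  apply Subtype.ext
  rw [coe_spDiv, Pic0.coe_degZeroCorrespondence, Pic0.coe_degZeroCorrespondence, coe_spDiv]
  exact mapDomain_correspondence hr φ ψ hφ hψ hφf hψf φ₁ ψ₁ hφ₁ hψ₁ hφf₁ hψf₁ hdeg hN _

/-- **Eichler–Shimura**: the correspondence reduces to `g₁ + ℓ g₁⁻¹`. -/
theorem spHom_eichlerShimura (φ ψ : F →ₐ[L] F') (hφ : φ.toRingHom.IsIntegral)
    (hψ : ψ.toRingHom.IsIntegral) (hFI : FundamentalIdentityAlong L φ hφ)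
    (hψf : FiniteAlong L ψ) (hNF : NormFormulaAlong L ψ hψf)
    (g₁ : SemilinearAut k F₁) (ℓ : ℕ) (hdeg : finrankAlong L φ = ℓ + 1)
    (hN : ∀ f : 𝔇.O, 𝔇.res f ≠ 0 → ∃ g : 𝔇.O, (g : F) = normAlong ψ (φ f) ∧
      𝔇.res g = (g₁ • 𝔇.res f) * (g₁⁻¹ • 𝔇.res f) ^ ℓ) (x : Pic0 L F) :
    spHom hr (Pic0.correspondence φ ψ hφ hψ hFI hψf hNF x) =
      g₁ • spHom hr x + ℓ • (g₁⁻¹ • spHom hr x) := by
  classical
  have key : ∀ D : Divisor L F, Finsupp.mapDomain r (Divisor.correspondence φ ψ hφ hψ D) =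
      g₁ • Finsupp.mapDomain r D + ℓ • (g₁⁻¹ • Finsupp.mapDomain r D) := by
    intro D
    have := corr_eq hr
      ((Finsupp.mapDomain.addMonoidHom r).comp (Divisor.correspondence φ ψ hφ hψ))
      (DistribSMul.toAddMonoidHom (Divisor k F₁) g₁ +
        ℓ • DistribSMul.toAddMonoidHom (Divisor k F₁) g₁⁻¹) (ℓ + 1)
      (fun P => by
        rw [AddMonoidHom.comp_apply]
        exact map_nonneg_of_single (Finsupp.mapDomain.addMonoidHom r) (fun Q => by
          rw [Finsupp.mapDomain.addMonoidHom_apply, Finsupp.mapDomain_single]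
          exact single_nonneg _ zero_le_one) (correspondence_single_nonneg φ ψ hφ hψ P))
      (fun P => by
        rw [AddMonoidHom.comp_apply, Finsupp.mapDomain.addMonoidHom_apply,
          degree_mapDomain, Divisor.degree_correspondence φ ψ hφ hψ hFI,
          Divisor.degree_single, Deuring.deg_eq_one, Nat.cast_one, mul_one, mul_one, hdeg]
        push_cast
        rfl)
      (fun P => by
        simp only [AddMonoidHom.add_apply, AddMonoidHom.smul_apply,
          DistribSMul.toAddMonoidHom_apply, SemilinearAut.smul_single, map_add, map_nsmul,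
          Divisor.degree_single, Deuring.deg_eq_one, Nat.cast_one, mul_one, nsmul_eq_mul]
        ring)
      (fun f hf => by
        obtain ⟨g, hg1, hg2⟩ := hN f hf
        have hf0 : (f : F) ≠ 0 := 𝔇.coe_ne_zero_of_res_ne_zero hf
        have h1 : g₁ • 𝔇.res f ≠ 0 := (smul_ne_zero_iff_ne _).mpr hf
        have h2 : g₁⁻¹ • 𝔇.res f ≠ 0 := (smul_ne_zero_iff_ne _).mpr hf
        have hg0 : 𝔇.res g ≠ 0 := by
          rw [hg2]
          exact mul_ne_zero h1 (pow_ne_zero _ h2)
        rw [AddMonoidHom.comp_apply, Finsupp.mapDomain.addMonoidHom_apply,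
          correspondence_divOf φ ψ hφ hψ hψf hf0, ← hg1, hr.mapDomain_divOf g hg0, hg2]
        simp only [AddMonoidHom.add_apply, AddMonoidHom.smul_apply,
          DistribSMul.toAddMonoidHom_apply]
        rw [← divOf_smul, ← divOf_smul]
        ext v
        rw [Finsupp.add_apply, Finsupp.smul_apply, divOf_apply, divOf_apply, divOf_apply,
          v.ord_mul h1 (pow_ne_zero _ h2), ord_pow, nsmul_eq_mul])
      (fun P => by
        have hsub : {Q : Place k F₁ | ∃ x : Place k F₁,
            (DistribSMul.toAddMonoidHom (Divisor k F₁) g₁ +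
              ℓ • DistribSMul.toAddMonoidHom (Divisor k F₁) g₁⁻¹) (Finsupp.single P 1) x ≠ 0 ∧
            (DistribSMul.toAddMonoidHom (Divisor k F₁) g₁ +
              ℓ • DistribSMul.toAddMonoidHom (Divisor k F₁) g₁⁻¹) (Finsupp.single Q 1) x ≠ 0}
            ⊆ {P, g₁⁻¹ • g₁⁻¹ • P, g₁ • g₁ • P} := by
          rintro Q ⟨x, h1, h2⟩
          have key : ∀ R : Place k F₁, (DistribSMul.toAddMonoidHom (Divisor k F₁) g₁ +
              ℓ • DistribSMul.toAddMonoidHom (Divisor k F₁) g₁⁻¹) (Finsupp.single R 1) x ≠ 0 →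
              x = g₁ • R ∨ x = g₁⁻¹ • R := by
            intro R hR
            simp only [AddMonoidHom.add_apply, AddMonoidHom.smul_apply,
              DistribSMul.toAddMonoidHom_apply, SemilinearAut.smul_single, Finsupp.add_apply,
              Finsupp.smul_apply, Finsupp.single_apply] at hR
            by_contra hcon
            push Not at hcon
            apply hR
            rw [if_neg (Ne.symm hcon.1), if_neg (Ne.symm hcon.2)]
            simp
          simp only [Set.mem_insert_iff, Set.mem_singleton_iff]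
          rcases key P h1 with h3 | h3 <;> rcases key Q h2 with h4 | h4
          · left
            exact (MulAction.injective g₁ (h3.symm.trans h4)).symm
          · right; right
            rw [h4] at h3
            rw [← h3, smul_inv_smul]
          · right; left
            rw [h4] at h3
            rw [← h3, inv_smul_smul]
          · left
            exact (MulAction.injective g₁⁻¹ (h3.symm.trans h4)).symm
        exact (Set.toFinite _).subset hsub)
      D
    rw [AddMonoidHom.comp_apply, Finsupp.mapDomain.addMonoidHom_apply] at this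
    rw [this]
    rfl
  obtain ⟨D, rfl⟩ := Pic0.mk_surjective x
  rw [Pic0.correspondence_mk, spHom_mk, spHom_mk, SemilinearAut.pic0_smul_mk,
    SemilinearAut.pic0_smul_mk]
  have h1 : ∀ E : Divisor.degZero (K := k) (F := F₁), ℓ • Pic0.mk E = Pic0.mk (ℓ • E) :=
    fun E => rfl
  rw [h1, ← Pic0.mk_add]
  congr 1
  apply Subtype.ext
  exact key _

end Corr

end Fermat.Agent.HeckeRed
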