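import Fermat.Agent.HeckeRed.Degrees
import Fermat.Agent.ModDeg.General

/-!
# Degeneracy maps over the residue field
-/

set_option autoImplicit false

noncomputable section

open AlgebraicCurve ModularCurve IntermediateField HahnSeries

namespace Fermat.Agent.HeckeRed

open Fermat.Agent.FunField Fermat.Agent.ModDeg Fermat.Agent.ModPoly

section Degen

variable (κ : Type*) [Field κ] (N p : ℕ) [NeZero N] [NeZero p]

/-- first degeneracy map on function fields -/
def alpha1 : modularFunctionFieldFullC κ N →ₐ[κ] modularFunctionFieldFullC κ (N * p) :=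
  IntermediateField.inclusion (full_degeneracyC_le κ (Dvd.intro p rfl))

theorem coe_alpha1 (x : modularFunctionFieldFullC κ N) :
    (alpha1 κ N p x : LaurentSeries κ) = x := IntermediateField.coe_inclusion _ x

/-- second degeneracy map on function fields -/
def beta1 : modularFunctionFieldFullC κ N →ₐ[κ] modularFunctionFieldFullC κ (N * p) :=
  ((qExpandAlgHomC κ p).comp (modularFunctionFieldFullC κ N).val).codRestrict
    (modularFunctionFieldFullC κ (N * p)).toSubalgebra
    (fun x => full_degeneracyC_map_le κ N p ⟨x, x.2, rfl⟩)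

omit [NeZero N] in
theorem coe_beta1 (x : modularFunctionFieldFullC κ N) :
    (beta1 κ N p x : LaurentSeries κ) = qExpand κ p x := rfl

end Degen

section Abs

variable {L κ : Type*} [Field L] [Field κ] [IsAlgClosed L] [IsAlgClosed κ]
  {E E' : IntermediateField L (LaurentSeries L)} {E₁ E₁' : IntermediateField κ (LaurentSeries κ)}
  {N p : ℕ} [NeZero N] [hp : Fact p.Prime]
  (hE : E = modularFunctionFieldFullC L N) (hE' : E' = modularFunctionFieldFullC L (N * p))
  (hE₁ : E₁ = modularFunctionFieldFullC κ N) (hE₁' : E₁' = modularFunctionFieldFullC κ (N * p))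
  (hL : ((N * p : ℕ) : L) ≠ 0) (hκ : ((N * p : ℕ) : κ) ≠ 0)
  (α β : E →ₐ[L] E') (α₁ β₁ : E₁ →ₐ[κ] E₁')
  (hα : ∀ x, (α x : LaurentSeries L) = x) (hα₁ : ∀ x, (α₁ x : LaurentSeries κ) = x)
  (hβ : ∀ x, (β x : LaurentSeries L) = qExpand L p (x : LaurentSeries L))
  (hβ₁ : ∀ x, (β₁ x : LaurentSeries κ) = qExpand κ p (x : LaurentSeries κ))

include hE hE' hE₁ hE₁' hL hκ hα hα₁ in
theorem finrankAlong_alpha_eq : finrankAlong L α = finrankAlong κ α₁ := by
  have h1 := finrankAlong_alpha hE hE' α hα hL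
  have h2 := finrankAlong_alpha hE₁ hE₁' α₁ hα₁ hκ
  exact Nat.eq_of_mul_eq_mul_right (dedekindPsi_pos N) (h1.trans h2.symm)

include hE hE' hE₁ hE₁' hL hκ hβ hβ₁ in
theorem finrankAlong_beta_eq : finrankAlong L β = finrankAlong κ β₁ := by
  have h1 := finrankAlong_beta hE hE' β hβ hL
  have h2 := finrankAlong_beta hE₁ hE₁' β₁ hβ₁ hκ
  exact Nat.eq_of_mul_eq_mul_right (dedekindPsi_pos N) (h1.trans h2.symm)

include hE hE' hL hβ in
theorem finrankAlong_beta_of_not_dvd (hpN : ¬ p ∣ N) : finrankAlong L β = p + 1 := by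
  have h1 := finrankAlong_beta hE hE' β hβ hL
  have h2 := relfinrank_full_full hL
  have hL' := hL
  rw [Nat.cast_mul] at hL'
  rw [relfinrank_full_mul_of_not_dvd_field (left_ne_zero_of_mul hL')
    (right_ne_zero_of_mul hL') hpN] at h2
  exact Nat.eq_of_mul_eq_mul_right (dedekindPsi_pos N) (h1.trans h2.symm)

end Abs

end Fermat.Agent.HeckeRed
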