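import Fermat.Agent.HeckeRed.Along
import Fermat.Agent.Deuring.Tower

/-!
# Norms along homomorphisms reduce to norms
-/

set_option autoImplicit false

noncomputable section

open AlgebraicCurve Module

namespace Fermat.Agent.HeckeRed

open Fermat.Agent.FunField Fermat.Agent.Deuring

variable {L k F F₁ M M₁ : Type*} [Field L] [Field k] [Field F] [Field F₁] [Field M] [Field M₁]
  [Algebra L F] [Algebra k F₁] [Algebra L M] [Algebra k M₁]

theorem normAlong_res (DF : Data L k F F₁) (DM : Data L k M M₁) (ψ : F →ₐ[L] M)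
    (ψ₁ : F₁ →ₐ[k] M₁) (hfin : FiniteAlong L ψ) (hfin₁ : FiniteAlong k ψ₁)
    (hmem : ∀ f : F, ψ f ∈ DM.O ↔ f ∈ DF.O)
    (hres : ∀ f : DF.O, DM.res ⟨ψ f, (hmem _).mpr f.2⟩ = ψ₁ (DF.res f))
    (hd : finrankAlong L ψ = finrankAlong k ψ₁) (c : DM.O) :
    ∃ h : normAlong ψ (c : M) ∈ DF.O, DF.res ⟨normAlong ψ (c : M), h⟩ =
      normAlong ψ₁ (DM.res c) := by
  let _ := algebraAlong ψ
  let _ := algebraAlong ψ₁
  have i1 : FiniteDimensional F M := hfin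
  have i2 : FiniteDimensional F₁ M₁ := hfin₁
  have T : Tower DF DM := { mem := hmem, res := hres }
  exact T.norm_res hd c

/-- Norm compatibility from compatibility of two homomorphisms. -/
theorem norm_compat_of (DF : Data L k F F₁) (DM : Data L k M M₁) (φ ψ : F →ₐ[L] M)
    (φ₁ ψ₁ : F₁ →ₐ[k] M₁) (hfin : FiniteAlong L ψ) (hfin₁ : FiniteAlong k ψ₁)
    (hmem : ∀ f : F, ψ f ∈ DM.O ↔ f ∈ DF.O)
    (hres : ∀ f : DF.O, DM.res ⟨ψ f, (hmem _).mpr f.2⟩ = ψ₁ (DF.res f))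
    (hd : finrankAlong L ψ = finrankAlong k ψ₁)
    (hφ : ∀ f : DF.O, ∃ h : φ f ∈ DM.O, DM.res ⟨φ f, h⟩ = φ₁ (DF.res f)) (f : DF.O) :
    ∃ g : DF.O, (g : F) = normAlong ψ (φ f) ∧ DF.res g = normAlong ψ₁ (φ₁ (DF.res f)) := by
  obtain ⟨h, h'⟩ := hφ f
  obtain ⟨h1, h2⟩ := normAlong_res DF DM ψ ψ₁ hfin hfin₁ hmem hres hd ⟨φ f, h⟩
  exact ⟨⟨_, h1⟩, rfl, by rw [h2, h']⟩

end Fermat.Agent.HeckeRed
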