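import Fermat.Agent.HeckeRed.Product
import Fermat.Agent.HeckeRed.GaussFunct
import Fermat.Agent.HeckeRed.FrobPow
import Fermat.Agent.HeckeRed.TowerAlong

/-!
# Reduction of correspondences on fields of Laurent series
-/

set_option autoImplicit false

noncomputable section

open AlgebraicCurve ModularCurve IntermediateField HahnSeries

namespace Fermat.Agent.HeckeRed

open Fermat.Agent.FunField Fermat.Agent.ModDeg Fermat.Agent.ModPoly Fermat.Agent.Igusa
  Fermat.Agent.Deuring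

variable {L : Type*} [Field L] {A : ValuationSubring L} {κ : Type*} [Field κ] {π : A →+* κ}
  {E E' : IntermediateField L (LaurentSeries L)} {E₁ E₁' : IntermediateField κ (LaurentSeries κ)}

/-- Deuring data given by the Gauss valuation. -/
structure IsGauss (π : A →+* κ) (𝔇 : Data L κ E E₁) : Prop where
  mem : ∀ x : E, x ∈ 𝔇.O ↔ (x : LaurentSeries L) ∈ gaussRing A π
  res : ∀ x : 𝔇.O, ((𝔇.res x : E₁) : LaurentSeries κ) =
    gaussRes A π ⟨((x : E) : LaurentSeries L), (mem _).mp x.2⟩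

namespace IsGauss

variable {𝔇 : Data L κ E E₁} {𝔇' : Data L κ E' E₁'} (h𝔇 : IsGauss π 𝔇) (h𝔇' : IsGauss π 𝔇')

include h𝔇 h𝔇'

/-- Transport along an endomorphism of Laurent series. -/
theorem endo (Θ : GaussEnd A π) (f : 𝔇.O) (g : E')
    (hg : (g : LaurentSeries L) = Θ.onL ((f : E) : LaurentSeries L)) :
    ∃ h : g ∈ 𝔇'.O, ((𝔇'.res ⟨g, h⟩ : E₁') : LaurentSeries κ) =
      Θ.onκ (𝔇.res f : E₁) := by
  have h1 := (h𝔇.mem _).mp f.2
  have h2 : g ∈ 𝔇'.O := by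
    rw [h𝔇'.mem, hg]
    exact Θ.mem h1
  refine ⟨h2, ?_⟩
  rw [h𝔇'.res, h𝔇.res, ← Θ.res h1]
  exact gaussRes_congr hg

variable {α β : E →ₐ[L] E'} {α₁ β₁ : E₁ →ₐ[κ] E₁'}
  (hα : ∀ x, (α x : LaurentSeries L) = x) (hα₁ : ∀ x, (α₁ x : LaurentSeries κ) = x)

include hα in
theorem alpha_mem (f : E) : α f ∈ 𝔇'.O ↔ f ∈ 𝔇.O := by
  rw [h𝔇.mem, h𝔇'.mem, hα]

include hα hα₁ in
theorem alpha_res (f : 𝔇.O) :
    𝔇'.res ⟨α f, (alpha_mem h𝔇 h𝔇' hα _).mpr f.2⟩ = α₁ (𝔇.res f) := by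
  apply Subtype.ext
  rw [hα₁, h𝔇'.res, h𝔇.res]
  exact gaussRes_congr (hα f)

variable {p : ℕ} [NeZero p] (hβ : ∀ x, (β x : LaurentSeries L) = qExpand L p (x : LaurentSeries L))
  (hβ₁ : ∀ x, (β₁ x : LaurentSeries κ) = qExpand κ p (x : LaurentSeries κ))

include hβ hβ₁ in
theorem beta_res (f : 𝔇.O) : ∃ h : β f ∈ 𝔇'.O, 𝔇'.res ⟨β f, h⟩ = β₁ (𝔇.res f) := by
  obtain ⟨h, hres⟩ := h𝔇.endo h𝔇' (GaussEnd.qExp A π p) f (β f) (hβ _)
  refine ⟨h, Subtype.ext (hres.trans ?_)⟩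
  rw [hβ₁]
  rfl

include hα hα₁ hβ hβ₁ in
theorem norm_compat (hfin : FiniteAlong L α) (hfin₁ : FiniteAlong κ α₁)
    (hd : finrankAlong L α = finrankAlong κ α₁) (f : 𝔇.O) :
    ∃ g : 𝔇.O, (g : E) = normAlong α (β f) ∧ 𝔇.res g = normAlong α₁ (β₁ (𝔇.res f)) :=
  norm_compat_of 𝔇 𝔇' β α β₁ α₁ hfin hfin₁ (alpha_mem h𝔇 h𝔇' hα)
    (alpha_res h𝔇 h𝔇' hα hα₁) hd (beta_res h𝔇 h𝔇' hβ hβ₁) f

end IsGauss

section Frobenius

variable [IsAlgClosed L] [CharZero L] {N p : ℕ} [NeZero N] [hp : Fact p.Prime]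
  (hE : E = modularFunctionFieldFullC L N) (hE' : E' = modularFunctionFieldFullC L (N * p))
  (α β : E →ₐ[L] E') (hα : ∀ x, (α x : LaurentSeries L) = x)
  (hβ : ∀ x, (β x : LaurentSeries L) = qExpand L p (x : LaurentSeries L))

omit [IsAlgClosed L] [CharZero L] in
/-- roots of unity of order `p` in `A` reduce to `1`. -/
theorem exists_unit_lift [CharP κ p] {v : Lˣ} (hv : IsPrimitiveRoot v p) :
    ∃ u : Aˣ, Units.map (A.subtype : A →* L) u = v ∧ Units.map (π : A →* κ) u = 1 := by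
  have hvp : ((v : L)) ^ p = 1 := by
    rw [← Units.val_pow_eq_pow_val, hv.pow_eq_one, Units.val_one]
  have hmem : ∀ x : L, x ^ p = 1 → x ∈ A := by
    intro x hx
    rw [← A.valuation_le_one_iff]
    have h1 : A.valuation x ^ p = 1 := by rw [← map_pow, hx, map_one]
    exact ((pow_eq_one_iff.mp h1).resolve_right hp.out.ne_zero).le
  have h1 : (v : L) ∈ A := hmem _ hvp
  have h2 : ((v⁻¹ : Lˣ) : L) ∈ A := hmem _ (by
    rw [← Units.val_pow_eq_pow_val, inv_pow, hv.pow_eq_one, inv_one, Units.val_one])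
  let u : Aˣ := ⟨⟨v, h1⟩, ⟨_, h2⟩, Subtype.ext v.mul_inv, Subtype.ext v.inv_mul⟩
  refine ⟨u, Units.ext rfl, ?_⟩
  apply Units.ext
  show π ⟨v, h1⟩ = 1
  have h3 : (⟨v, h1⟩ : A) ^ p = 1 := Subtype.ext hvp
  have h4 : (π ⟨v, h1⟩) ^ p = 1 := by rw [← map_pow, h3, map_one]
  have h5 : (π ⟨v, h1⟩ - 1) ^ p = 0 := by rw [sub_pow_char, h4, one_pow, sub_self]
  exact sub_eq_zero.mp (pow_eq_zero_iff hp.out.ne_zero |>.mp h5)

include hE hE' hα hβ in
set_option maxHeartbeats 1600000 in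
/-- **The Eichler–Shimura congruence for norms.** -/
theorem es_compat (hpN : ¬ p ∣ N) [CharP κ p] (htame : IsTameField E) {𝔇 : Data L κ E E₁}
    (h𝔇 : IsGauss π 𝔇) (g₁ : SemilinearAut κ E₁)
    (hg₁ : ∀ y : E₁, ((g₁ • y : E₁) : LaurentSeries κ) =
      coeffMap (frobenius κ p) (y : LaurentSeries κ)) (f : 𝔇.O) :
    ∃ g : 𝔇.O, (g : E) = normAlong α (β f) ∧
      𝔇.res g = (g₁ • 𝔇.res f) * (g₁⁻¹ • 𝔇.res f) ^ p := by
  obtain ⟨v, hv⟩ := exists_primitiveRoot_unit (K := L) hp.out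
    (by exact_mod_cast hp.out.ne_zero)
  obtain ⟨u, hu, hu1⟩ := exists_unit_lift (A := A) (π := π) hv
  set x : LaurentSeries L := ((f : E) : LaurentSeries L) with hx
  have hxG : x ∈ gaussRing A π := (h𝔇.mem _).mp f.2
  set y : LaurentSeries κ := ((𝔇.res f : E₁) : LaurentSeries κ) with hy
  have hy' : y = gaussRes A π ⟨x, hxG⟩ := h𝔇.res f
  set G : E := normAlong α (β f) with hG
  have hprod := qExpand_normAlong hE hE' α β hα hβ hpN hv (f : E)
  rw [← hG, ← hx] at hprod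
  -- conjugates and their residues
  let Q := GaussEnd.qExp A π p
  have hnone : conjL p v none x ∈ gaussRing A π := Q.mem (Q.mem hxG)
  have hnone' : gaussRes A π ⟨conjL p v none x, hnone⟩ = qExpand κ p (qExpand κ p y) := by
    rw [hy']
    exact (Q.res (Q.mem hxG)).trans (congrArg (qExpand κ p) (Q.res hxG))
  have hsome : ∀ b : Fin p, ∃ h : conjL p v (some b) x ∈ gaussRing A π,
      gaussRes A π ⟨conjL p v (some b) x, h⟩ = y := by
    intro b
    let T := GaussEnd.twi π (u ^ (b : ℕ))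
    have e1 : conjL p v (some b) x = T.onL x := by
      show twist (v ^ (b : ℕ)) x = twist (Units.map (A.subtype : A →* L) (u ^ (b : ℕ))) x
      rw [map_pow, hu]
    have e2 : T.onκ y = y := by
      show twist (Units.map (π : A →* κ) (u ^ (b : ℕ))) y = y
      rw [map_pow, hu1, one_pow, twist_one]
    refine ⟨by rw [e1]; exact T.mem hxG, ?_⟩
    have e3 : T.onκ (gaussRes A π ⟨x, hxG⟩) = y := by rw [← hy', e2]
    rw [← e3, ← T.res hxG]
    exact gaussRes_congr e1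
  choose hs hs' using hsome
  let F : Option (Fin p) → gaussRing A π := fun i =>
    match i with
    | none => ⟨_, hnone⟩
    | some b => ⟨_, hs b⟩
  have hF : ∀ i, (F i : LaurentSeries L) = conjL p v i x := by
    rintro (_ | b) <;> rfl
  have hprodF : qExpand L p (G : LaurentSeries L) = ((∏ i, F i : gaussRing A π) :
      LaurentSeries L) := by
    have h0 : ((∏ i, F i : gaussRing A π) : LaurentSeries L) =
      ∏ i, (F i : LaurentSeries L) := map_prod (gaussRing A π).subtype F Finset.univ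
    rw [hprod, h0]
    exact Finset.prod_congr rfl fun i _ => (hF i).symm
  have hQG : Q.onL (G : LaurentSeries L) ∈ gaussRing A π := by
    show qExpand L p (G : LaurentSeries L) ∈ _
    rw [hprodF]
    exact (∏ i, F i).2
  have hGG : (G : LaurentSeries L) ∈ gaussRing A π := (Q.mem_iff htame G.2).mp hQG
  have hGO : G ∈ 𝔇.O := (h𝔇.mem _).mpr hGG
  have hresF : gaussRes A π (∏ i, F i) = qExpand κ p (qExpand κ p y) * y ^ p := by
    rw [map_prod, Fintype.prod_option]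
    have h1 : gaussRes A π (F none) = qExpand κ p (qExpand κ p y) := hnone'
    have h2 : ∀ b, gaussRes A π (F (some b)) = y := hs'
    rw [h1]
    congr 1
    rw [Finset.prod_congr rfl fun b _ => h2 b, Finset.prod_const, Finset.card_univ,
      Fintype.card_fin]
  have hresG : qExpand κ p (gaussRes A π ⟨G, hGG⟩) = qExpand κ p (qExpand κ p y) * y ^ p := by
    rw [← hresF]
    exact (Q.res hGG).symm.trans (gaussRes_congr hprodF)
  -- the inverse Frobenius
  set z : E₁ := g₁⁻¹ • 𝔇.res f with hz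
  have hz1 : coeffMap (frobenius κ p) (z : LaurentSeries κ) = y := by
    rw [← hg₁, hz, smul_inv_smul]
  have hz2 : (z : LaurentSeries κ) ^ p = qExpand κ p y := by
    rw [pow_char_laurent, hz1]
  refine ⟨⟨G, hGO⟩, rfl, Subtype.ext ?_⟩
  rw [h𝔇.res]
  apply qExpand_injective' p
  refine hresG.trans ?_
  rw [pow_char_laurent p y, ← map_mul]
  congr 1
  show qExpand κ p y * coeffMap (frobenius κ p) y = ((g₁ • 𝔇.res f : E₁) : LaurentSeries κ) *
    ((z ^ p : E₁) : LaurentSeries κ)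
  rw [hg₁, IntermediateField.coe_pow, hz2, mul_comm]

end Frobenius

section Galois

/-- Compatibility of reduction with semilinear automorphisms acting on coefficients. -/
theorem galois_compat {𝔇 : Data L κ E E₁} (h𝔇 : IsGauss π 𝔇) (g : SemilinearAut L E)
    (g₁ : SemilinearAut κ E₁) (σ : L →+* L) (σA : A →+* A) (σκ : κ →+* κ)
    (h1 : ∀ a : A, σ a = σA a) (h2 : ∀ a : A, σκ (π a) = π (σA a))
    (hg : ∀ x : E, ((g • x : E) : LaurentSeries L) = coeffMap σ (x : LaurentSeries L))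
    (hg₁ : ∀ x : E₁, ((g₁ • x : E₁) : LaurentSeries κ) = coeffMap σκ (x : LaurentSeries κ))
    (f : 𝔇.O) : ∃ h : g • (f : E) ∈ 𝔇.O, 𝔇.res ⟨g • (f : E), h⟩ = g₁ • 𝔇.res f := by
  obtain ⟨h, hres⟩ := h𝔇.endo h𝔇 (GaussEnd.coef σ σA σκ h1 h2) f (g • (f : E)) (hg _)
  refine ⟨h, Subtype.ext (hres.trans ?_)⟩
  rw [hg₁]
  rfl

end Galois

end Fermat.Agent.HeckeRed
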