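import Fermat.Agent.HeckeRed.Degrees

/-!
# Conjugates of `f(q^p)` over `F_N` and the product formula for the norm
-/

set_option autoImplicit false

noncomputable section

open AlgebraicCurve ModularCurve IntermediateField HahnSeries

namespace Fermat.Agent.HeckeRed

open Fermat.Agent.FunField Fermat.Agent.ModDeg Fermat.Agent.ModPoly

section

variable {K : Type*} [Field K] [IsAlgClosed K] [CharZero K] {N p : ℕ} [NeZero N]
  [hp : Fact p.Prime]

omit [IsAlgClosed K] [CharZero K] in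
/-- vj in terms of `hs`. -/
theorem hs_one_vj {d : ℕ} (hd : d ≠ 0) :
    hs 1 one_pos 1 (vj K d) = hs (d : ℚ) (by exact_mod_cast Nat.pos_of_ne_zero hd) 1
      (jqModC K) := hs_vj hd _

omit [IsAlgClosed K] [CharZero K] in
theorem hs_one_injective : Function.Injective (hs (1 : ℚ) one_pos (1 : Kˣ)) :=
  (hs (1 : ℚ) one_pos (1 : Kˣ)).injective

/-- A common root of `Φ_ℓ(j_a, X)` and `Φ_p(j_{aℓp}, X)` is `j_{aℓ}`. -/
theorem eq_vj_of_roots {a ℓ : ℕ} (ha : a ≠ 0) [hℓ : Fact ℓ.Prime] {z : LaurentSeries K}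
    (h1 : (phi ℓ (vj K a)).eval z = 0) (h2 : (phi p (vj K (a * ℓ * p))).eval z = 0) :
    z = vj K (a * ℓ) := by
  have hℓ0 : (ℓ : K) ≠ 0 := by exact_mod_cast hℓ.out.ne_zero
  have hp0 : (p : K) ≠ 0 := by exact_mod_cast hp.out.ne_zero
  obtain ⟨w, hw⟩ := exists_primitiveRoot_unit hℓ.out hℓ0
  obtain ⟨v, hv⟩ := exists_primitiveRoot_unit hp.out hp0
  have hℓpos : (0 : ℚ) < ℓ := by exact_mod_cast hℓ.out.pos
  have hppos : (0 : ℚ) < p := by exact_mod_cast hp.out.pos
  have hapos : (0 : ℚ) < a := by exact_mod_cast Nat.pos_of_ne_zero ha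
  have hℓ2 : (2 : ℚ) ≤ ℓ := by exact_mod_cast hℓ.out.two_le
  have hp2 : (2 : ℚ) ≤ p := by exact_mod_cast hp.out.two_le
  have haℓ : a * ℓ ≠ 0 := mul_ne_zero ha hℓ.out.ne_zero
  have haℓp : a * ℓ * p ≠ 0 := mul_ne_zero haℓ hp.out.ne_zero
  set y := hs (1 : ℚ) one_pos (1 : Kˣ) z with hy
  have e1 : (phi ℓ (RingHom.id (HahnSeries ℚ K) (hs (a : ℚ) hapos 1 (jqModC K)))).eval y = 0 := by
    rw [RingHom.id_apply, ← hs_one_vj ha, ← phi_map, Polynomial.eval_map, hy,
      Polynomial.eval₂_hom, h1, map_zero]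
  have e2 : (phi p (RingHom.id (HahnSeries ℚ K) (hs ((a * ℓ * p : ℕ) : ℚ)
      (by exact_mod_cast Nat.pos_of_ne_zero haℓp) 1 (jqModC K)))).eval y = 0 := by
    rw [RingHom.id_apply, ← hs_one_vj haℓp, ← phi_map, Polynomial.eval_map, hy,
      Polynomial.eval₂_hom, h2, map_zero]
  have r1 := eval_phi_hs_eq_zero hw (RingHom.id _) (η := 1) (by rw [one_pow]) e1
  have r2 := eval_phi_hs_eq_zero hv (RingHom.id _) (η := 1) (by rw [one_pow]) e2
  simp only [RingHom.id_apply] at r1 r2
  apply hs_one_injective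
  rw [hs_one_vj haℓ]
  rcases r1 with r1 | ⟨b, r1⟩
  · rw [← hy, r1]
    exact hs_congr _ (by push_cast; ring) _ _ (by rw [one_pow]) _
  · exfalso
    rcases r2 with r2 | ⟨c, r2⟩
    · have h3 := (hs_jq_inj (r1.symm.trans r2)).1
      push_cast at h3
      field_simp at h3
      have h4 : (4 : ℚ) ≤ ℓ ^ 2 := by nlinarith
      have h5 : (4 : ℚ) ≤ p ^ 2 := by nlinarith
      nlinarith
    · have h3 := (hs_jq_inj (r1.symm.trans r2)).1
      push_cast at h3
      field_simp at h3
      nlinarith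

omit [IsAlgClosed K] [CharZero K] [NeZero N] in
/-- Homomorphisms from the modular function field are determined by constants and the `j_d`. -/
theorem ringHom_ext_full {M : Type*} [Field M]
    (f g : modularFunctionFieldFullC K N →+* M)
    (hK : ∀ c : K, f (algebraMap K _ c) = g (algebraMap K _ c))
    (hj : ∀ d (hd : d ∣ N) (hd0 : d ≠ 0), f ⟨vj K d, vj_mem_full K hd0 hd⟩ =
      g ⟨vj K d, vj_mem_full K hd0 hd⟩) : f = g := by
  have key : ∀ x, x ∈ IntermediateField.adjoin K (divisorExpansionsC K N) →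
      ∀ h : x ∈ modularFunctionFieldFullC K N, f ⟨x, h⟩ = g ⟨x, h⟩ := by
    intro x hx
    induction hx using IntermediateField.adjoin_induction with
    | mem x hx =>
      obtain ⟨d, hd, hdN, rfl⟩ := hx
      intro h
      have := hj d hdN hd.out
      have e : (⟨vj K d, vj_mem_full K hd.out hdN⟩ : modularFunctionFieldFullC K N) =
          ⟨qExpand K d (jqModC K), h⟩ := Subtype.ext (vj_eq K d)
      rwa [e] at this
    | algebraMap c => intro h; exact hK c
    | add x y hx hy ihx ihy =>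
      intro h
      have hx' : x ∈ modularFunctionFieldFullC K N := hx
      have hy' : y ∈ modularFunctionFieldFullC K N := hy
      have e : (⟨x + y, h⟩ : modularFunctionFieldFullC K N) = ⟨x, hx'⟩ + ⟨y, hy'⟩ := rfl
      rw [e, map_add, map_add, ihx, ihy]
    | inv x hx ihx =>
      intro h
      have hx' : x ∈ modularFunctionFieldFullC K N := hx
      have e : (⟨x⁻¹, h⟩ : modularFunctionFieldFullC K N) = (⟨x, hx'⟩)⁻¹ := rfl
      rw [e, map_inv₀, map_inv₀, ihx]
    | mul x y hx hy ihx ihy =>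
      intro h
      have hx' : x ∈ modularFunctionFieldFullC K N := hx
      have hy' : y ∈ modularFunctionFieldFullC K N := hy
      have e : (⟨x * y, h⟩ : modularFunctionFieldFullC K N) = ⟨x, hx'⟩ * ⟨y, hy'⟩ := rfl
      rw [e, map_mul, map_mul, ihx, ihy]
  ext x
  exact key x x.2 x.2

variable (hpN : ¬ p ∣ N)

include hpN in
set_option maxHeartbeats 1600000 in
/-- The embedding `F_{Np} → K((t))` over `x ↦ x(t^p)` sending `j(q^{pd})` to `j(t^d)`. -/
theorem exists_tau0 :
    ∃ τ : modularFunctionFieldFullC K (N * p) →+* LaurentSeries K,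
      (∀ (x : LaurentSeries K) (_ : x ∈ modularFunctionFieldFullC K N)
        (h' : x ∈ modularFunctionFieldFullC K (N * p)), τ ⟨x, h'⟩ = qExpand K p x) ∧
      (∀ (x : LaurentSeries K) (_ : x ∈ modularFunctionFieldFullC K N)
        (h' : qExpand K p x ∈ modularFunctionFieldFullC K (N * p)), τ ⟨qExpand K p x, h'⟩ = x) := by
  have hN : N ≠ 0 := NeZero.ne N
  have hNK : (N : K) ≠ 0 := by exact_mod_cast hN
  have hpK : (p : K) ≠ 0 := by exact_mod_cast hp.out.ne_zero
  obtain ⟨v, hv⟩ := exists_primitiveRoot_unit hp.out hpK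
  have hNp : N * p ≠ 0 := mul_ne_zero hN hp.out.ne_zero
  have : NeZero (N * p) := ⟨hNp⟩
  set E := modularFunctionFieldFullC K N with hE
  set E' := modularFunctionFieldFullC K (N * p) with hE'
  have hEE' : E ≤ E' := full_degeneracyC_le K (Dvd.intro p rfl)
  have hj : jqModC K ∈ E := jqModC_mem_full K N
  set jp : LaurentSeries K := qExpand K p (jqModC K) with hjp
  have hjp' : jp ∈ E' := jqModCd_mem_full K (N * p) (Dvd.intro_left N rfl)
  have hn : jp ∉ E := qExpand_jq_notMem_full hN (roots_of_dvd hNK) hv hpK hpN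
  have hint : IsIntegral E jp := isIntegral_of_eval_phi E p hj (eval_phi_jq hv)
  have hmin := minpoly_qExpand_jq hv E hj hn
  let ι : E →+* LaurentSeries K := (qExpand K p).comp (E.val : E →+* LaurentSeries K)
  have hroot : (minpoly E jp).eval₂ ι (jqModC K) = 0 := by
    rw [hmin, ← Polynomial.eval_map, phi_map]
    exact eval_phi_qExpand_jq hv
  let lft : AdjoinRoot (minpoly E jp) →+* LaurentSeries K := AdjoinRoot.lift ι (jqModC K) hroot
  have hle : E' ≤ (E⟮jp⟯).restrictScalars K := by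
    rw [hE', full_mul_prime_of_not_dvd hN (roots_of_dvd hNK) hv hpN, sup_le_iff]
    constructor
    · intro x hx
      exact (E⟮jp⟯).algebraMap_mem ⟨x, hx⟩
    · rw [adjoin_simple_le_iff]
      exact mem_adjoin_simple_self E jp
  let inc : E' →+* E⟮jp⟯ := (E'.val : E' →+* LaurentSeries K).codRestrict E⟮jp⟯ (fun x => hle x.2)
  let τ : E' →+* LaurentSeries K :=
    lft.comp (((adjoinRootEquivAdjoin E hint).symm : E⟮jp⟯ →+* _).comp inc)
  have hτE : ∀ (x : LaurentSeries K) (hx : x ∈ E) (h' : x ∈ E'), τ ⟨x, h'⟩ = qExpand K p x := by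
    intro x hx h'
    have e1 : inc ⟨x, h'⟩ = algebraMap E E⟮jp⟯ ⟨x, hx⟩ := rfl
    show lft ((adjoinRootEquivAdjoin E hint).symm (inc ⟨x, h'⟩)) = _
    rw [e1, AlgEquiv.commutes]
    exact AdjoinRoot.lift_of hroot
  have hτj : τ ⟨jp, hjp'⟩ = jqModC K := by
    have e1 : inc ⟨jp, hjp'⟩ = AdjoinSimple.gen E jp := rfl
    show lft ((adjoinRootEquivAdjoin E hint).symm (inc ⟨jp, hjp'⟩)) = _
    rw [e1, adjoinRootEquivAdjoin_symm_apply_gen]
    exact AdjoinRoot.lift_root hroot
  -- transfer of a modular relation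
  have htrans : ∀ (ℓ : ℕ) [Fact ℓ.Prime] (x y : LaurentSeries K) (hx : x ∈ E') (hy : y ∈ E'),
      (phi ℓ x).eval y = 0 → (phi ℓ (τ ⟨x, hx⟩)).eval (τ ⟨y, hy⟩) = 0 := by
    intro ℓ _ x y hx hy h
    have h1 : (phi ℓ (⟨x, hx⟩ : E')).eval (⟨y, hy⟩ : E') = 0 := by
      apply (E'.val : E' →+* LaurentSeries K).injective
      rw [map_zero, ← Polynomial.eval₂_hom, ← Polynomial.eval_map, phi_map]
      exact h
    rw [← phi_map, Polynomial.eval_map, Polynomial.eval₂_hom, h1, map_zero]
  have key : ∀ d : ℕ, d ∣ N → ∀ h : vj K (d * p) ∈ E', τ ⟨vj K (d * p), h⟩ = vj K d := by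
    intro d
    induction d using induction_on_primes with
    | zero => intro h; exact absurd (Nat.eq_zero_of_zero_dvd h) hN
    | one =>
      intro _ h
      have e : (⟨vj K (1 * p), h⟩ : E') = ⟨jp, hjp'⟩ := by
        apply Subtype.ext
        show vj K (1 * p) = _
        rw [one_mul, vj_eq]
      rw [e, hτj, vj_one]
    | prime_mul ℓ a hℓ ih =>
      intro hd h
      have : Fact ℓ.Prime := ⟨hℓ⟩
      have hℓK : (ℓ : K) ≠ 0 := by exact_mod_cast hℓ.ne_zero
      obtain ⟨w, hw⟩ := exists_primitiveRoot_unit hℓ hℓK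
      have ha : a ∣ N := (Dvd.intro_left ℓ rfl).trans hd
      have ha0 : a ≠ 0 := fun h0 => hN (Nat.eq_zero_of_zero_dvd (h0 ▸ ha))
      have hap : a * p ≠ 0 := mul_ne_zero ha0 hp.out.ne_zero
      have haE : vj K (a * p) ∈ E' := vj_mem_full K hap (Nat.mul_dvd_mul_right ha p)
      have hℓa0 : ℓ * a ≠ 0 := mul_ne_zero hℓ.ne_zero ha0
      have hℓaE : vj K (ℓ * a) ∈ E := vj_mem_full K hℓa0 hd
      have h1 := htrans ℓ (vj K (a * p)) (vj K (ℓ * a * p)) haE h
        (eval_phi_vj hw hap (by ring))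
      rw [ih ha haE] at h1
      have h2 := htrans p (vj K (ℓ * a)) (vj K (ℓ * a * p)) (hEE' hℓaE) h
        (eval_phi_vj hv hℓa0 rfl)
      rw [hτE _ hℓaE, qExpand_vj K p _ hℓa0] at h2
      have h3 : vj K (a * ℓ * p) = vj K (ℓ * a * p) := by rw [mul_comm a ℓ]
      have h2' : (phi p (vj K (a * ℓ * p))).eval (τ ⟨vj K (ℓ * a * p), h⟩) = 0 := by
        rw [h3]; exact h2
      have h4 := eq_vj_of_roots ha0 h1 h2'
      exact h4.trans (by rw [mul_comm])
  refine ⟨τ, hτE, ?_⟩
  -- `τ ∘ β = incl`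
  have hβmem : ∀ x : E, qExpand K p (x : LaurentSeries K) ∈ E' := fun x =>
    full_degeneracyC_map_le K N p ⟨x, x.2, rfl⟩
  let f : E →+* LaurentSeries K := τ.comp
    (((qExpand K p).comp (E.val : E →+* LaurentSeries K)).codRestrict E' hβmem)
  have hfg : f = (E.val : E →+* LaurentSeries K) := by
    refine ringHom_ext_full f _ (fun c => ?_) (fun d hd hd0 => ?_)
    · have e : (⟨qExpand K p (algebraMap K (LaurentSeries K) c),
          hβmem (algebraMap K E c)⟩ : E') =
          ⟨algebraMap K (LaurentSeries K) c, E'.algebraMap_mem c⟩ := by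
        apply Subtype.ext
        show qExpand K p (algebraMap K (LaurentSeries K) c) = algebraMap K (LaurentSeries K) c
        rw [algebraMap_laurentSeries_eq_single, qExpand_single, mul_zero]
      show τ ⟨qExpand K p (algebraMap K (LaurentSeries K) c), hβmem (algebraMap K E c)⟩ =
        algebraMap K (LaurentSeries K) c
      rw [e, hτE _ (E.algebraMap_mem c), algebraMap_laurentSeries_eq_single, qExpand_single,
        mul_zero]
    · show τ ⟨qExpand K p (vj K d), _⟩ = vj K d
      have e : qExpand K p (vj K d) = vj K (d * p) := qExpand_vj K p d hd0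
      have h5 : ∀ (y : LaurentSeries K) (hy : y = vj K (d * p)) (h6 : y ∈ E'),
          τ ⟨y, h6⟩ = vj K d := by
        rintro _ rfl h6
        exact key d hd h6
      exact h5 _ e _
  intro x hx h'
  exact DFunLike.congr_fun hfg ⟨x, hx⟩

end

end Fermat.Agent.HeckeRed
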