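import Fermat.Agent.Deuring.Main
import Fermat.Agent.PushPull.NormFormula

/-!
# Specialization of correspondences

An additive positive map on divisors (`S`, in the generic fibre) and one in the special fibre
(`S₁`) with the same degree which agree on divisors of functions agree on all divisors.
-/

set_option autoImplicit false

noncomputable section

open AlgebraicCurve Module

namespace Fermat.Agent.HeckeRed

open Fermat.Agent.FunField Fermat.Agent.FunField.PlaceLemmas Fermat.Agent.Deuring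
  Fermat.Agent.PushPull

/-- positivity of an additive map on divisors. -/
theorem map_nonneg_of_single {K F K' X : Type*} [Field K] [Field F] [Algebra K F] [Field K']
    [Field X] [Algebra K' X] (S : Divisor K F →+ Divisor K' X)
    (hS : ∀ P, 0 ≤ S (Finsupp.single P 1)) {D : Divisor K F} (hD : 0 ≤ D) : 0 ≤ S D := by
  classical
  rw [← Finsupp.sum_single D, Finsupp.sum, map_sum]
  refine Finset.sum_nonneg fun P _ => ?_
  have h1 : Finsupp.single P (D P) = D P • (Finsupp.single P 1 : Divisor K F) := by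
    rw [Finsupp.smul_single, smul_eq_mul, mul_one]
  rw [h1, map_zsmul]
  exact smul_nonneg (hD P) (hS P)

theorem single_natCast {K M : Type*} [Field K] [Field M] [Algebra K M] (v : Place K M) (n : ℕ) :
    (Finsupp.single v (n : ℤ) : Divisor K M) = n • (Finsupp.single v 1 : Divisor K M) := by
  rw [Finsupp.smul_single, nsmul_eq_mul, mul_one]

theorem map_apply_eq_sum {K F K' X : Type*} [Field K] [Field F] [Algebra K F] [Field K']
    [Field X] [Algebra K' X] (S : Divisor K F →+ Divisor K' X) (D : Divisor K F)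
    (x : Place K' X) : S D x = ∑ P ∈ D.support, D P * S (Finsupp.single P 1) x := by
  classical
  conv_lhs => rw [← Finsupp.sum_single D, Finsupp.sum, map_sum]
  rw [Finset.sum_apply']
  refine Finset.sum_congr rfl fun P _ => ?_
  have h1 : Finsupp.single P (D P) = D P • (Finsupp.single P 1 : Divisor K F) := by
    rw [Finsupp.smul_single, smul_eq_mul, mul_one]
  rw [h1, map_zsmul, Finsupp.smul_apply, smul_eq_mul]

/-- A function with exact pole of given large order at `P` and prescribed nonvanishing. -/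
theorem exists_exact_pole {k F₁ : Type*} [Field k] [Field F₁] [Algebra k F₁] [IsFF k F₁]
    [Infinite k] (P : Place k F₁) (B : Set (Place k F₁)) (hB : B.Finite) (c : ℤ) :
    ∃ (f : F₁) (n : ℕ), 0 < n ∧ c ≤ n ∧ f ≠ 0 ∧ P.ord f = -(n : ℤ) ∧
      (∀ Q, Q ≠ P → 0 ≤ Q.ord f) ∧ ∀ Q ∈ B, Q ≠ P → Q.ord f = 0 := by
  classical
  obtain ⟨y, hy, hyQ⟩ := exists_pole_only P
  have hy0 : y ≠ 0 := by
    rintro rfl
    simp at hy
  set m : ℕ := (-(P.ord y)).toNat with hm
  have hm' : (m : ℤ) = -(P.ord y) := Int.toNat_of_nonneg (by omega)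
  have hm0 : 0 < m := by omega
  set j : ℕ := c.toNat + 1 with hj
  have hj0 : 0 < j := Nat.succ_pos _
  have hjm : P.ord (y ^ j) = -((j * m : ℕ) : ℤ) := by
    rw [ord_pow]; push_cast; rw [hm']; ring
  have hjQ : ∀ Q, Q ≠ P → 0 ≤ Q.ord (y ^ j) := fun Q hQ => by
    rw [ord_pow]; exact mul_nonneg (Int.natCast_nonneg _) (hyQ Q hQ)
  have hyj0 : y ^ j ≠ 0 := pow_ne_zero _ hy0
  have hpos : 0 < j * m := Nat.mul_pos hj0 hm0
  have hord : ∀ a : k, P.ord (y ^ j + algebraMap k F₁ a) = -((j * m : ℕ) : ℤ) ∧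
      y ^ j + algebraMap k F₁ a ≠ 0 := by
    intro a
    have hlt : P.ord (y ^ j) < P.ord (algebraMap k F₁ a) := by
      rw [hjm, ord_algebraMap]; omega
    exact ⟨by rw [ord_add_eq_of_lt P hyj0 (Or.inr hlt), hjm], add_ne_zero_of_ord_lt P hyj0 hlt⟩
  have hnonneg : ∀ a : k, ∀ Q, Q ≠ P → 0 ≤ Q.ord (y ^ j + algebraMap k F₁ a) := by
    intro a Q hQ
    rcases eq_or_ne (algebraMap k F₁ a) 0 with h0 | h0
    · rw [h0, add_zero]; exact hjQ Q hQ
    have := min_ord_le_ord_add Q hyj0 h0 (hord a).2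
    rw [ord_algebraMap] at this
    have h2 := hjQ Q hQ
    exact le_trans (le_min h2 le_rfl) this
  -- bad constants
  have hbad : ∀ Q : Place k F₁, ({a : k | 0 < Q.ord (y ^ j + algebraMap k F₁ a)}).Subsingleton := by
    intro Q a ha b hb
    by_contra hab
    have h1 : (y ^ j + algebraMap k F₁ a) - (y ^ j + algebraMap k F₁ b) =
      algebraMap k F₁ (a - b) := by rw [map_sub]; ring
    have h2 : (y ^ j + algebraMap k F₁ a) + -(y ^ j + algebraMap k F₁ b) ≠ 0 := by
      rw [← sub_eq_add_neg, h1]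
      simpa [sub_eq_zero] using hab
    have h3 := min_ord_le_ord_add Q (hord a).2 (neg_ne_zero.mpr (hord b).2) h2
    rw [← sub_eq_add_neg, h1, ord_algebraMap, ord_neg] at h3
    have ha' : 0 < Q.ord (y ^ j + algebraMap k F₁ a) := ha
    have hb' : 0 < Q.ord (y ^ j + algebraMap k F₁ b) := hb
    have := lt_min ha' hb'
    omega
  have hfin : (⋃ Q ∈ B, {a : k | 0 < Q.ord (y ^ j + algebraMap k F₁ a)}).Finite :=
    hB.biUnion fun Q _ => (hbad Q).finite
  obtain ⟨a, ha⟩ := hfin.exists_notMem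
  refine ⟨y ^ j + algebraMap k F₁ a, j * m, hpos, ?_, (hord a).2, (hord a).1, hnonneg a,
    fun Q hQ hQP => ?_⟩
  · have h1 : c ≤ j := by omega
    have h2 : j ≤ j * m := Nat.le_mul_of_pos_right j hm0
    omega
  · have h1 : ¬ 0 < Q.ord (y ^ j + algebraMap k F₁ a) := fun h =>
      ha (Set.mem_biUnion hQ h)
    have h2 := hnonneg a Q hQP
    omega

section Main

variable {L k F F₁ X : Type*} [Field L] [Field k] [Field F] [Field F₁] [Field X] [Algebra L F]
  [Algebra k F₁] [Algebra k X]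

/-- The two properties of the reduction map on places. -/
structure IsReduction (𝔇 : Data L k F F₁) (r : Place L F → Place k F₁) : Prop where
  div : ∀ f : 𝔇.O, 𝔇.res f ≠ 0 → ∀ G : Divisor L F, (∀ P, G P = P.ord (f : F)) →
    ∀ Q, Finsupp.mapDomain r G Q = Q.ord (𝔇.res f)
  lift : ∃ c : ℤ, ∀ E : Divisor L F, c ≤ Divisor.degree E →
    𝔇.red (riemannRochSpace E) = riemannRochSpace (Finsupp.mapDomain r E)

variable [IsFF L F] [IsFF k F₁] [IsFF k X] [IsAlgClosed L] [IsAlgClosed k]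

omit [IsAlgClosed k] [IsFF k X] [IsAlgClosed L] in
theorem IsReduction.mapDomain_divOf {𝔇 : Data L k F F₁} {r : Place L F → Place k F₁}
    (hr : IsReduction 𝔇 r) (f : 𝔇.O) (hf : 𝔇.res f ≠ 0) :
    Finsupp.mapDomain r (divOf (f : F)) = divOf (𝔇.res f) := by
  ext Q
  rw [hr.div f hf (divOf (f : F)) (fun P => divOf_apply _ P) Q, divOf_apply]

/-- **Specialization of correspondences.** -/
theorem corr_single {𝔇 : Data L k F F₁} {r : Place L F → Place k F₁} (hr : IsReduction 𝔇 r)
    (S : Divisor L F →+ Divisor k X) (S₁ : Divisor k F₁ →+ Divisor k X) (d : ℤ)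
    (hS : ∀ P, 0 ≤ S (Finsupp.single P 1))
    (hdS : ∀ P, Divisor.degree (S (Finsupp.single P 1)) = d)
    (hdS₁ : ∀ P, Divisor.degree (S₁ (Finsupp.single P 1)) = d)
    (hcomp : ∀ f : 𝔇.O, 𝔇.res f ≠ 0 → S (divOf (f : F)) = S₁ (divOf (𝔇.res f)))
    (hfin : ∀ P : Place k F₁, {Q : Place k F₁ | ∃ x : Place k X,
      S₁ (Finsupp.single P 1) x ≠ 0 ∧ S₁ (Finsupp.single Q 1) x ≠ 0}.Finite)
    (P : Place L F) :
    S (Finsupp.single P 1) = S₁ (Finsupp.single (r P) 1) := by
  classical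
  have : Infinite k := IsAlgClosed.instInfinite
  obtain ⟨c, hc⟩ := hr.lift
  obtain ⟨f₁, n, hn, hcn, hf₁0, hf₁P, hf₁Q, hf₁B⟩ := exists_exact_pole (r P) _ (hfin (r P)) c
  have hdeg : Divisor.degree (Finsupp.single P (n : ℤ) : Divisor L F) = n := by
    rw [Divisor.degree_single, Deuring.deg_eq_one P, Nat.cast_one, mul_one]
  have hmem : f₁ ∈ riemannRochSpace (Finsupp.mapDomain r (Finsupp.single P (n : ℤ))) := by
    rw [Finsupp.mapDomain_single, mem_rr]
    intro Q
    rw [mem_geSub_of_ne hf₁0, Finsupp.single_apply]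
    split_ifs with h
    · rw [← h, hf₁P]
    · rw [neg_zero]; exact hf₁Q Q (Ne.symm h)
  rw [← hc _ (by rw [hdeg]; exact hcn)] at hmem
  obtain ⟨f, hf, rfl⟩ := hmem
  have hf0 : (f : F) ≠ 0 := 𝔇.coe_ne_zero_of_res_ne_zero hf₁0
  set G : Divisor L F := divOf (f : F) + Finsupp.single P (n : ℤ) with hG
  set G₁ : Divisor k F₁ := divOf (𝔇.res f) + Finsupp.single (r P) (n : ℤ) with hG₁
  have hG0 : 0 ≤ G := by
    intro v
    have := mem_rr.mp hf v
    rw [mem_geSub_of_ne hf0] at this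
    rw [hG, Finsupp.add_apply, divOf_apply, Finsupp.coe_zero, Pi.zero_apply]
    omega
  have hG₁P : G₁ (r P) = 0 := by
    rw [hG₁, Finsupp.add_apply, divOf_apply, hf₁P, Finsupp.single_eq_same]; ring
  have hG₁Q : ∀ Q, Q ≠ r P → G₁ Q = Q.ord (𝔇.res f) := by
    intro Q hQ
    rw [hG₁, Finsupp.add_apply, divOf_apply, Finsupp.single_eq_of_ne hQ, add_zero]
  have hSG := map_nonneg_of_single S hS hG0
  have hrel : S G + n • S₁ (Finsupp.single (r P) 1) = S₁ G₁ + n • S (Finsupp.single P 1) := by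
    have e1 : S G = S₁ (divOf (𝔇.res f)) + n • S (Finsupp.single P 1) := by
      rw [hG, map_add, hcomp f hf₁0, single_natCast, map_nsmul]
    have e2 : S₁ G₁ = S₁ (divOf (𝔇.res f)) + n • S₁ (Finsupp.single (r P) 1) := by
      rw [hG₁, map_add, single_natCast, map_nsmul]
    rw [e1, e2]; abel
  have hle : S₁ (Finsupp.single (r P) 1) ≤ S (Finsupp.single P 1) := by
    intro x
    have hrelx := DFunLike.congr_fun hrel x
    rw [Finsupp.add_apply, Finsupp.add_apply, Finsupp.smul_apply, Finsupp.smul_apply,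
      nsmul_eq_mul, nsmul_eq_mul] at hrelx
    have hn' : (0 : ℤ) < n := by exact_mod_cast hn
    by_cases hx : S₁ (Finsupp.single (r P) 1) x = 0
    · rw [hx]; exact hS P x
    · have hz : S₁ G₁ x = 0 := by
        rw [map_apply_eq_sum]
        refine Finset.sum_eq_zero fun Q hQ => ?_
        by_contra hne
        have hQx : S₁ (Finsupp.single Q 1) x ≠ 0 := right_ne_zero_of_mul hne
        have hQG : G₁ Q ≠ 0 := left_ne_zero_of_mul hne
        have hQP : Q ≠ r P := by
          rintro rfl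
          exact hQG hG₁P
        exact hQG ((hG₁Q Q hQP).trans (hf₁B Q ⟨x, hx, hQx⟩ hQP))
      rw [hz, zero_add] at hrelx
      have h1 : 0 ≤ S G x := hSG x
      have h2 : (n : ℤ) * S₁ (Finsupp.single (r P) 1) x ≤ n * S (Finsupp.single P 1) x := by
        linarith
      exact le_of_mul_le_mul_left h2 hn'
  exact (eq_of_le_of_degree_le hle (by rw [hdS, hdS₁])).symm

theorem corr_eq {𝔇 : Data L k F F₁} {r : Place L F → Place k F₁} (hr : IsReduction 𝔇 r)
    (S : Divisor L F →+ Divisor k X) (S₁ : Divisor k F₁ →+ Divisor k X) (d : ℤ)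
    (hS : ∀ P, 0 ≤ S (Finsupp.single P 1))
    (hdS : ∀ P, Divisor.degree (S (Finsupp.single P 1)) = d)
    (hdS₁ : ∀ P, Divisor.degree (S₁ (Finsupp.single P 1)) = d)
    (hcomp : ∀ f : 𝔇.O, 𝔇.res f ≠ 0 → S (divOf (f : F)) = S₁ (divOf (𝔇.res f)))
    (hfin : ∀ P : Place k F₁, {Q : Place k F₁ | ∃ x : Place k X,
      S₁ (Finsupp.single P 1) x ≠ 0 ∧ S₁ (Finsupp.single Q 1) x ≠ 0}.Finite)
    (D : Divisor L F) : S D = S₁ (Finsupp.mapDomain r D) := by
  have key : S = S₁.comp (Finsupp.mapDomain.addMonoidHom r) := by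
    refine Finsupp.addHom_ext' fun P => AddMonoidHom.ext_int ?_
    have := corr_single hr S S₁ d hS hdS hdS₁ hcomp hfin P
    simpa using this
  rw [key]; rfl

end Main

end Fermat.Agent.HeckeRed
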