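import Fermat.Agent.HeckeRed.Conj
import Fermat.Agent.ModDeg.General

/-!
# The product formula for the norm along the degeneracy map
-/

set_option autoImplicit false

noncomputable section

open AlgebraicCurve ModularCurve IntermediateField HahnSeries

namespace Fermat.Agent.HeckeRed

open Fermat.Agent.FunField Fermat.Agent.ModDeg Fermat.Agent.ModPoly

variable {K : Type*} [Field K] [IsAlgClosed K] [CharZero K] {N p : ℕ} [NeZero N]
  [hp : Fact p.Prime]

omit [IsAlgClosed K] [CharZero K] in
theorem jT_injective {v : Kˣ} (hv : IsPrimitiveRoot v p) :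
    Function.Injective (jT K p v) := by
  intro i j h
  exact hs_jT_injective (r := 1) (hr := one_pos) (η := (1 : Kˣ)) hv (by simp only [h])

variable {E E' : IntermediateField K (LaurentSeries K)}
  (hE : E = modularFunctionFieldFullC K N) (hE' : E' = modularFunctionFieldFullC K (N * p))
  (α β : E →ₐ[K] E') (hα : ∀ x, (α x : LaurentSeries K) = x)
  (hβ : ∀ x, (β x : LaurentSeries K) = qExpand K p (x : LaurentSeries K))

include hE hE' hα hβ in
set_option maxHeartbeats 1600000 in
/-- **Product formula.** -/
theorem qExpand_normAlong (hpN : ¬ p ∣ N) {v : Kˣ} (hv : IsPrimitiveRoot v p) (x : E) :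
    qExpand K p ((normAlong α (β x) : E) : LaurentSeries K) =
      ∏ i, conjL p v i (x : LaurentSeries K) := by
  have hτ := exists_tau0 (K := K) hpN
  rw [← hE, ← hE'] at hτ
  obtain ⟨τ, hτ1, hτ2⟩ := hτ
  have hN : N ≠ 0 := NeZero.ne N
  have hNK : (N : K) ≠ 0 := by exact_mod_cast hN
  have hpK : (p : K) ≠ 0 := by exact_mod_cast hp.out.ne_zero
  let _ : Algebra E E' := algebraAlong α
  let M := AlgebraicClosure (LaurentSeries K)
  let ιM : LaurentSeries K →+* M := algebraMap _ _
  let _ : Algebra E M := (ιM.comp ((qExpand K p).comp (E.val : E →+* LaurentSeries K))).toAlgebra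
  have hdeg : Module.finrank E E' = p + 1 := by
    have h1 : finrankAlong K α = p + 1 := by
      rw [finrankAlong_eq_relfinrank α E (fun y => ⟨fun hy => ⟨⟨y, hy⟩, hα _⟩, by
        rintro ⟨x, rfl⟩; rw [hα]; exact x.2⟩), hE, hE']
      exact relfinrank_full_mul_of_not_dvd_field hNK hpK hpN
    exact h1
  have : FiniteDimensional E E' := Module.finite_of_finrank_pos (by rw [hdeg]; omega)
  have hmem : ∀ x : E, (x : LaurentSeries K) ∈ E' := fun x => by rw [← hα]; exact (α x).2
  have hαx : ∀ x : E, algebraMap E E' x = ⟨x, hmem x⟩ := fun x => Subtype.ext (hα x)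
  let σ : Option (Fin p) → (E' →ₐ[E] M) := fun i =>
    match i with
    | none =>
      { ιM.comp ((qExpand K p).comp (E'.val : E' →+* LaurentSeries K)) with
        commutes' := fun x => by
          show ιM (qExpand K p ((algebraMap E E' x : E') : LaurentSeries K)) =
            ιM (qExpand K p (x : LaurentSeries K))
          rw [hαx] }
    | some b =>
      { ιM.comp ((twist (v ^ (b : ℕ))).comp τ) with
        commutes' := fun x => by
          show ιM (twist (v ^ (b : ℕ)) (τ (algebraMap E E' x))) =
            ιM (qExpand K p (x : LaurentSeries K))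
          rw [hαx, hτ1 _ x.2, twist_qExpand_of_pow_eq_one]
          rw [← pow_mul, mul_comm, pow_mul, hv.pow_eq_one, one_pow] }
  have hσ : ∀ i (y : E), σ i (β y) = ιM (conjL p v i (y : LaurentSeries K)) := by
    intro i y
    rcases i with _ | b
    · show ιM (qExpand K p ((β y : E') : LaurentSeries K)) = _
      rw [hβ]; rfl
    · show ιM (twist (v ^ (b : ℕ)) (τ (β y))) = ιM (twist (v ^ (b : ℕ)) y)
      have e : β y = ⟨qExpand K p (y : LaurentSeries K), by rw [← hβ]; exact (β y).2⟩ :=
        Subtype.ext (hβ y)
      rw [e, hτ2 _ y.2]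
  have hj : jqModC K ∈ E := hE ▸ jqModC_mem_full K N
  have hinj : Function.Injective σ := by
    intro i j h
    apply jT_injective hv
    apply ιM.injective
    have h1 := hσ i ⟨_, hj⟩
    have h2 := hσ j ⟨_, hj⟩
    rw [h] at h1
    exact h1.symm.trans h2
  have hbij : Function.Bijective σ := by
    rw [Fintype.bijective_iff_injective_and_card]
    refine ⟨hinj, ?_⟩
    rw [AlgHom.card, hdeg, Fintype.card_option, Fintype.card_fin]
  apply ιM.injective
  have h1 : ιM (qExpand K p ((normAlong α (β x) : E) : LaurentSeries K)) =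
      algebraMap E M (Algebra.norm E (β x)) := rfl
  rw [h1, Algebra.norm_eq_prod_embeddings, map_prod,
    ← Fintype.prod_equiv (Equiv.ofBijective σ hbij) (fun i => σ i (β x)) (fun s => s (β x))
      (fun i => rfl)]
  exact Finset.prod_congr rfl fun i _ => hσ i x

end Fermat.Agent.HeckeRed
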