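import Fermat.Agent.HeckeRed.Abstract
import Fermat.Agent.HeckeRed.Spec
import Fermat.Agent.HeckeRed.Degen
import Fermat.Agent.TorsInj.DeuringTors

/-!
# Specialization of `Pic⁰` and Hecke correspondences
-/

set_option autoImplicit false

noncomputable section

open AlgebraicCurve ModularCurve IntermediateField HahnSeries

namespace Fermat.Agent.HeckeRed

open Fermat.Agent.FunField Fermat.Agent.ModDeg Fermat.Agent.ModPoly Fermat.Agent.Igusa
  Fermat.Agent.Deuring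

section Abs

variable {L : Type*} [Field L] [IsAlgClosed L] {A : ValuationSubring L}
  {κ : Type*} [Field κ] [IsAlgClosed κ] {π : A →+* κ}
  {E E' : IntermediateField L (LaurentSeries L)} {E₁ E₁' : IntermediateField κ (LaurentSeries κ)}
  [IsFF L E] [IsFF L E'] [IsFF κ E₁] [IsFF κ E₁']
  {𝔇 : Data L κ E E₁} {𝔇' : Data L κ E' E₁'} (h𝔇 : IsGauss π 𝔇) (h𝔇' : IsGauss π 𝔇')
  {r : Place L E → Place κ E₁} (hr : IsReduction 𝔇 r)
  {N p : ℕ} [NeZero N] [hp : Fact p.Prime]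
  (hE : E = modularFunctionFieldFullC L N) (hE' : E' = modularFunctionFieldFullC L (N * p))
  (hL : ((N * p : ℕ) : L) ≠ 0)
  (α β : E →ₐ[L] E')
  (hα : ∀ x, (α x : LaurentSeries L) = x)
  (hβ : ∀ x, (β x : LaurentSeries L) = qExpand L p (x : LaurentSeries L))
  (hβi : β.toRingHom.IsIntegral) (hαi : α.toRingHom.IsIntegral)
  (hFI : FundamentalIdentityAlong L β hβi) (hαf : FiniteAlong L α)
  (hNF : NormFormulaAlong L α hαf)

include h𝔇 h𝔇' hE hE' hL hα hβ in
/-- Reduction of the Hecke correspondence away from the residue characteristic. -/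
theorem abs_spHom_corr (hE₁ : E₁ = modularFunctionFieldFullC κ N)
    (hE₁' : E₁' = modularFunctionFieldFullC κ (N * p)) (hκ : ((N * p : ℕ) : κ) ≠ 0)
    (α₁ β₁ : E₁ →ₐ[κ] E₁') (hα₁ : ∀ x, (α₁ x : LaurentSeries κ) = x)
    (hβ₁ : ∀ x, (β₁ x : LaurentSeries κ) = qExpand κ p (x : LaurentSeries κ)) (x : Pic0 L E) :
    spHom hr (Pic0.correspondence β α hβi hαi hFI hαf hNF x) =
      Pic0.correspondence β₁ α₁ (isIntegral_of_isFF β₁) (isIntegral_of_isFF α₁)
        (fundamentalIdentityAlong _ _ (finiteAlong_of_isFF β₁)) (finiteAlong_of_isFF α₁)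
        (normFormulaAlong _ _) (spHom hr x) :=
  spHom_correspondence hr β α hβi hαi hFI (finiteAlong_of_isFF β) hαf hNF β₁ α₁ _ _ _
    (finiteAlong_of_isFF β₁) _ _ (finrankAlong_beta_eq hE hE' hE₁ hE₁' hL hκ β β₁ hβ hβ₁)
    (fun f _ => IsGauss.norm_compat h𝔇 h𝔇' hα hα₁ hβ hβ₁ hαf (finiteAlong_of_isFF α₁)
      (finrankAlong_alpha_eq hE hE' hE₁ hE₁' hL hκ α α₁ hα hα₁) f) x

include h𝔇 hE hE' hL hα hβ in
/-- Reduction of the Hecke correspondence at the residue characteristic. -/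
theorem abs_spHom_es [CharZero L] [CharP κ p] (hpN : ¬ p ∣ N) (htame : IsTameField E)
    (g₁ : SemilinearAut κ E₁)
    (hg₁ : ∀ y : E₁, ((g₁ • y : E₁) : LaurentSeries κ) =
      coeffMap (frobenius κ p) (y : LaurentSeries κ)) (x : Pic0 L E) :
    spHom hr (Pic0.correspondence β α hβi hαi hFI hαf hNF x) =
      g₁ • spHom hr x + p • (g₁⁻¹ • spHom hr x) :=
  spHom_eichlerShimura hr β α hβi hαi hFI hαf hNF g₁ p
    (finrankAlong_beta_of_not_dvd hE hE' hL β hβ hpN)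
    (fun f _ => es_compat hE hE' α β hα hβ hpN htame h𝔇 g₁ hg₁ f) x

omit [IsAlgClosed L] [IsAlgClosed κ] [IsFF L E'] [IsFF κ E₁'] in
/-- Injectivity on torsion prime to the residue characteristic. -/
theorem spHom_torsion [IsAlgClosed L] [IsAlgClosed κ] {g : ℤ} (hRR : RRLarge L E g)
    (hRR₁ : RRLarge κ E₁ g) {m : ℕ} (hm : (m : κ) ≠ 0) (x : Pic0 L E) (hx : m • x = 0)
    (hsp : spHom hr x = 0) : x = 0 := by
  obtain ⟨D, rfl⟩ := Pic0.mk_surjective x
  have h1 : Pic0.mk (m • D) = 0 := hx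
  rw [mk_eq_zero_iff'] at h1
  rw [spHom_mk, mk_eq_zero_iff'] at hsp
  rw [mk_eq_zero_iff']
  exact Fermat.Agent.TorsInj.torsion_injective hRR hRR₁ (𝔇 := 𝔇) (r := r) hr.div hr.lift hm h1 hsp

end Abs

end Fermat.Agent.HeckeRed
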